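/-
P-SS row 973 (KT-C3 FROB), helper65, part 1: the elementary `Ψ`-hypotheses of `KtAbsStatement`
for `Ψ = modelSigma K₁ N (φ₁.trans φ₁)`, `φ₁` a model Frobenius.

* `ktf_psi_preserves`, `ktf_psi_symm_preserves` : `Ψ` and `Ψ.symm` preserve `A₀`.
* `ktf_psi_fix`, `ktf_psi_fix_inv` : `Ψ x = x` for a coordinate with rational `q`-expansion.
* `ktf_psi_mem_iff` : `Ψ` preserves a valuation subring preserved by `modelSigma φ₁`.
* `ktf_frob_root`, `ktf_psi_root` : `φ₁ c = c ^ q` and `Ψ c = c ^ (q ^ 2)` on the `n`-th roots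
  of unity of `A₀`, `n` a unit of `A₀`.
-/
import Mathlib
import Fermat.Agent.H55.SS.KTContract

set_option autoImplicit false
set_option linter.style.haveILetI false
set_option linter.unusedSectionVars false

noncomputable section

namespace Fermat.Agent.H65.SS

open ModularCurve AlgebraicCurve
open Fermat.Agent.H22.KL Fermat.Agent.H55.SS Fermat.Agent.H82.SS

section Base

variable {K₁ : Type} [Field K₁] [Algebra ℚ K₁] {A₀ : Type} [CommRing A₀] [Algebra A₀ K₁]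

/-- The iterates of a model Frobenius preserve `A₀`. -/
theorem ktf_pow_preserves {q : ℕ} {φ₁ : K₁ ≃ₐ[ℚ] K₁} (hφ : IsModelFrobenius K₁ A₀ q φ₁)
    (k : ℕ) (a : A₀) : ∃ b : A₀, algebraMap A₀ K₁ b = (φ₁ ^ k) (algebraMap A₀ K₁ a) := by
  induction k with
  | zero => exact ⟨a, rfl⟩
  | succ k ih =>
    obtain ⟨b, hb⟩ := ih
    obtain ⟨c, hc, -⟩ := hφ b
    refine ⟨c, ?_⟩
    rw [hc, hb, pow_succ']
    rfl

/-- The inverse of a model Frobenius of a number field preserves `A₀`. -/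
theorem ktf_symm_preserves [FiniteDimensional ℚ K₁] {q : ℕ} {φ₁ : K₁ ≃ₐ[ℚ] K₁}
    (hφ : IsModelFrobenius K₁ A₀ q φ₁) (a : A₀) :
    ∃ b : A₀, algebraMap A₀ K₁ b = φ₁.symm (algebraMap A₀ K₁ a) := by
  obtain ⟨n, hn, hpow⟩ := (isOfFinOrder_of_finite φ₁).exists_pow_eq_one
  obtain ⟨b, hb⟩ := ktf_pow_preserves hφ (n - 1) a
  refine ⟨b, ?_⟩
  rw [hb]
  have h1 : φ₁ ^ (n - 1) = φ₁⁻¹ := by
    rw [eq_inv_iff_mul_eq_one, ← pow_succ, Nat.sub_add_cancel hn, hpow]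
  rw [h1]
  rfl

/-- Roots of unity of order prime to the residue characteristic are distinct modulo the maximal
ideal. -/
theorem ktf_root_unique [IsDomain A₀] [IsLocalRing A₀] {n : ℕ} (hn : IsUnit ((n : ℕ) : A₀))
    {a b : A₀} (ha : a ^ n = 1) (hb : b ^ n = 1) (hab : ¬ IsUnit (a - b)) : a = b := by
  have hn0 : n ≠ 0 := by
    rintro rfl
    rw [Nat.cast_zero] at hn
    exact not_isUnit_zero hn
  have hbu : IsUnit b := IsUnit.of_pow_eq_one hb hn0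
  have hgeom := (Commute.all a b).geom_sum₂_mul n
  rw [ha, hb, sub_self] at hgeom
  rcases mul_eq_zero.mp hgeom with h | h
  · exfalso
    -- the sum is a unit
    have hres : IsLocalRing.residue A₀ a = IsLocalRing.residue A₀ b := by
      rw [← sub_eq_zero, ← map_sub, IsLocalRing.residue_eq_zero_iff]
      exact hab
    have h1 := congrArg (IsLocalRing.residue A₀) h
    rw [map_sum, map_zero] at h1
    have h2 : ∀ i ∈ Finset.range n, IsLocalRing.residue A₀ (a ^ i * b ^ (n - 1 - i)) =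
        IsLocalRing.residue A₀ b ^ (n - 1) := by
      intro i hi
      rw [map_mul, map_pow, map_pow, hres, ← pow_add]
      congr 1
      have := Finset.mem_range.mp hi
      omega
    rw [Finset.sum_congr rfl h2, Finset.sum_const, Finset.card_range, nsmul_eq_mul] at h1
    have h3 : IsUnit (IsLocalRing.residue A₀ ((n : ℕ) : A₀) * IsLocalRing.residue A₀ b ^ (n - 1)) :=
      ((hn.map _).mul ((hbu.map _).pow _))
    rw [map_natCast, h1] at h3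
    exact not_isUnit_zero h3
  · exact sub_eq_zero.mp h

/-- A model Frobenius is the `q`-th power map on the roots of unity of order prime to `q`. -/
theorem ktf_frob_root [IsDomain A₀] [IsDiscreteValuationRing A₀] [IsFractionRing A₀ K₁]
    {q : ℕ} {φ₁ : K₁ ≃ₐ[ℚ] K₁} (hφ : IsModelFrobenius K₁ A₀ q φ₁) {n : ℕ}
    (hn : IsUnit ((n : ℕ) : A₀)) {c : A₀} (hc : c ^ n = 1) :
    φ₁ (algebraMap A₀ K₁ c) = algebraMap A₀ K₁ (c ^ q) := by
  obtain ⟨b, hb, hnu⟩ := hφ c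
  have hinj : Function.Injective (algebraMap A₀ K₁) := IsFractionRing.injective A₀ K₁
  have hbn : b ^ n = 1 := by
    apply hinj
    rw [map_pow, hb, ← map_pow, ← map_pow, hc, map_one, map_one]
  have hcq : (c ^ q) ^ n = 1 := by rw [← pow_mul, mul_comm, pow_mul, hc, one_pow]
  rw [← hb, ktf_root_unique hn hbn hcq hnu]

end Base

section Model

variable {K₁ : Type} [Field K₁] [Algebra ℚ K₁] {A₀ : Type} [CommRing A₀] [Algebra A₀ K₁]
variable (N : ℕ) [Algebra A₀ (ModelField K₁ N)] [IsScalarTower A₀ K₁ (ModelField K₁ N)]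

theorem ktf_sigma_algebraMap (σ₁ : K₁ ≃ₐ[ℚ] K₁) (a : A₀) :
    modelSigma K₁ N σ₁ (algebraMap A₀ (ModelField K₁ N) a) =
      algebraMap K₁ (ModelField K₁ N) (σ₁ (algebraMap A₀ K₁ a)) := by
  rw [IsScalarTower.algebraMap_apply A₀ K₁ (ModelField K₁ N)]
  exact arithmeticRingAut_algebraMap _ σ₁ _

theorem ktf_sigma_symm_algebraMap (σ₁ : K₁ ≃ₐ[ℚ] K₁) (a : A₀) :
    (modelSigma K₁ N σ₁).symm (algebraMap A₀ (ModelField K₁ N) a) =
      algebraMap K₁ (ModelField K₁ N) (σ₁.symm (algebraMap A₀ K₁ a)) := by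
  rw [IsScalarTower.algebraMap_apply A₀ K₁ (ModelField K₁ N)]
  exact arithmeticRingAut_algebraMap _ σ₁.symm _

/-- `Ψ = σ ∘ σ`. -/
theorem ktf_psi_apply (φ₁ : K₁ ≃ₐ[ℚ] K₁) (z : ModelField K₁ N) :
    modelSigma K₁ N (φ₁.trans φ₁) z = modelSigma K₁ N φ₁ (modelSigma K₁ N φ₁ z) := by
  apply Subtype.ext
  show coeffMap ((φ₁.trans φ₁ : K₁ ≃ₐ[ℚ] K₁) : K₁ →+* K₁) (z : LaurentSeries K₁) =
    coeffMap (φ₁ : K₁ →+* K₁) (coeffMap (φ₁ : K₁ →+* K₁) (z : LaurentSeries K₁))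
  rw [coeffMap_coeffMap]
  exact coeffMap_congr (RingHom.ext fun _ => rfl) _

/-- `Ψ` preserves `A₀`. -/
theorem ktf_psi_preserves {q : ℕ} {φ₁ : K₁ ≃ₐ[ℚ] K₁} (hφ : IsModelFrobenius K₁ A₀ q φ₁)
    (a : A₀) : ∃ b : A₀, modelSigma K₁ N (φ₁.trans φ₁) (algebraMap A₀ (ModelField K₁ N) a) =
      algebraMap A₀ (ModelField K₁ N) b := by
  obtain ⟨b, hb, -⟩ := hφ a
  obtain ⟨c, hc, -⟩ := hφ b
  refine ⟨c, ?_⟩
  rw [ktf_sigma_algebraMap, IsScalarTower.algebraMap_apply A₀ K₁ (ModelField K₁ N) c, hc, hb]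
  rfl

/-- `Ψ⁻¹` preserves `A₀`. -/
theorem ktf_psi_symm_preserves [FiniteDimensional ℚ K₁] {q : ℕ} {φ₁ : K₁ ≃ₐ[ℚ] K₁}
    (hφ : IsModelFrobenius K₁ A₀ q φ₁) (a : A₀) :
    ∃ b : A₀, (modelSigma K₁ N (φ₁.trans φ₁)).symm (algebraMap A₀ (ModelField K₁ N) a) =
      algebraMap A₀ (ModelField K₁ N) b := by
  obtain ⟨b, hb⟩ := ktf_symm_preserves hφ a
  obtain ⟨c, hc⟩ := ktf_symm_preserves hφ b
  refine ⟨c, ?_⟩
  rw [ktf_sigma_symm_algebraMap, IsScalarTower.algebraMap_apply A₀ K₁ (ModelField K₁ N) c, hc,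
    hb]
  rfl

/-- `Ψ` fixes the functions with rational `q`-expansion. -/
theorem ktf_sigma_fix (σ₁ : K₁ ≃ₐ[ℚ] K₁) (x₀ : LaurentSeries ℚ) (x : ModelField K₁ N)
    (hx : (x : LaurentSeries K₁) = coeffEmb K₁ x₀) : modelSigma K₁ N σ₁ x = x := by
  apply Subtype.ext
  show coeffMap (σ₁ : K₁ →+* K₁) (x : LaurentSeries K₁) = (x : LaurentSeries K₁)
  rw [hx]
  exact coeffMap_coeffEmb σ₁ x₀

theorem ktf_psi_fix (φ₁ : K₁ ≃ₐ[ℚ] K₁) (x₀ : LaurentSeries ℚ) (x : ModelField K₁ N)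
    (hx : (x : LaurentSeries K₁) = coeffEmb K₁ x₀) :
    modelSigma K₁ N (φ₁.trans φ₁) x = x :=
  ktf_sigma_fix N _ x₀ x hx

theorem ktf_psi_fix_inv (φ₁ : K₁ ≃ₐ[ℚ] K₁) (x₀ : LaurentSeries ℚ) (x : ModelField K₁ N)
    (hx : (x : LaurentSeries K₁) = coeffEmb K₁ x₀) :
    modelSigma K₁ N (φ₁.trans φ₁) x⁻¹ = x⁻¹ := by
  rw [map_inv₀, ktf_psi_fix N φ₁ x₀ x hx]

/-- `Ψ` preserves every valuation subring preserved by `σ = modelSigma φ₁`. -/
theorem ktf_psi_mem_iff (φ₁ : K₁ ≃ₐ[ℚ] K₁) (V : ValuationSubring (ModelField K₁ N))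
    (hV : ∀ z : ModelField K₁ N, z ∈ V ↔ modelSigma K₁ N φ₁ z ∈ V) (z : ModelField K₁ N) :
    z ∈ V ↔ modelSigma K₁ N (φ₁.trans φ₁) z ∈ V := by
  rw [ktf_psi_apply, ← hV, ← hV]

/-- `Ψ` is the `q²`-th power map on the roots of unity of `A₀` of order prime to `q`. -/
theorem ktf_psi_root [IsDomain A₀] [IsDiscreteValuationRing A₀] [IsFractionRing A₀ K₁]
    {q : ℕ} {φ₁ : K₁ ≃ₐ[ℚ] K₁} (hφ : IsModelFrobenius K₁ A₀ q φ₁) {n : ℕ}
    (hn : IsUnit ((n : ℕ) : A₀)) {c : A₀} (hc : c ^ n = 1) :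
    modelSigma K₁ N (φ₁.trans φ₁) (algebraMap A₀ (ModelField K₁ N) c) =
      algebraMap A₀ (ModelField K₁ N) (c ^ (q ^ 2)) := by
  have hcq : (c ^ q) ^ n = 1 := by rw [← pow_mul, mul_comm, pow_mul, hc, one_pow]
  rw [ktf_sigma_algebraMap, IsScalarTower.algebraMap_apply A₀ K₁ (ModelField K₁ N) (c ^ (q ^ 2))]
  congr 1
  show φ₁ (φ₁ (algebraMap A₀ K₁ c)) = _
  rw [ktf_frob_root hφ hn hc, ktf_frob_root hφ hn hcq, ← pow_mul, sq]

end Model

end Fermat.Agent.H65.SS
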