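/-
P-SS row 973 (KT-C3 FROB), helper65, part 4: FR-3 at the nodes of the chart `x = j`.

* abstract helpers: `ktf_chart_preserves` (an automorphism preserving `A` and fixing `y`
  preserves `B(y)`), `ktf_nonunits_of_inv` (the (INV) clause gives stability of the maximal ideal
  of the valuation);
* commutations: `ktf_sigma_alpha`, `ktf_sigma_beta` (`modelSigma` commutes with `α`, `β`);
* `ModelKRStatement M q` (KR, the Kronecker congruences on both components),
  `ModelFracLocStatement M q` (FRAC-loc: at a node, the branch `V_∞` is generated by level `M`);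
* `ktf_node_chart` : FR-3 in the chart `x` from (INV), (KR), (FRAC-loc) and the integrality of
  `β` (INT).
-/
import Mathlib
import Fermat.Agent.H55.SS.KTModel
import Fermat.Agent.H65.SS.KtFrobBasic
import Fermat.Agent.H71.SS.FrobNode
import Fermat.Agent.H66.SS.ModelIntegral
import Fermat.Agent.H89.KLGauss
import Fermat.Agent.H58.KL.ModelTr

set_option autoImplicit false
set_option linter.style.haveILetI false
set_option linter.unusedSectionVars false

noncomputable section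

namespace Fermat.Agent.H65.SS

open ModularCurve AlgebraicCurve
open Fermat.Agent.H22.KL Fermat.Agent.H11.SS2 Fermat.Agent.H55.SS Fermat.Agent.H82.SS

/-! ### Abstract helpers -/

/-- An automorphism preserving (the image of) `A` and fixing `y` preserves `A[y]`. -/
theorem ktf_chartRing_preserves {A : Type} [CommRing A] {E : Type} [Field E] [Algebra A E]
    (Ψ : E ≃+* E) (hA : ∀ a : A, ∃ b : A, Ψ (algebraMap A E a) = algebraMap A E b) {y : E}
    (hy : Ψ y = y) : ∀ r ∈ chartRing A E y, Ψ r ∈ chartRing A E y := by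
  intro r hr
  unfold chartRing at hr ⊢
  induction hr using Algebra.adjoin_induction with
  | mem x hx =>
    rw [Set.mem_singleton_iff.mp hx, hy]
    exact Algebra.subset_adjoin rfl
  | algebraMap a =>
    obtain ⟨b, hb⟩ := hA a
    rw [hb]
    exact Subalgebra.algebraMap_mem _ b
  | add u v _ _ hu hv =>
    rw [map_add]
    exact Subalgebra.add_mem _ hu hv
  | mul u v _ _ hu hv =>
    rw [map_mul]
    exact Subalgebra.mul_mem _ hu hv

/-- An automorphism preserving `A` and fixing `y` preserves `B(y)`. -/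
theorem ktf_chart_preserves {A : Type} [CommRing A] {E : Type} [Field E] [Algebra A E]
    (Ψ : E ≃+* E) (hA : ∀ a : A, ∃ b : A, Ψ (algebraMap A E a) = algebraMap A E b) {y : E}
    (hy : Ψ y = y) : ∀ z ∈ chartClosure A E y, Ψ z ∈ chartClosure A E y := by
  intro z hz
  have hz' : IsIntegral (chartRing A E y) z := hz
  let φ : chartRing A E y →+* chartRing A E y :=
    RingHom.restrict (Ψ : E →+* E) (chartRing A E y) (chartRing A E y)
      (ktf_chartRing_preserves Ψ hA hy)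
  have h : IsIntegral (chartRing A E y) ((Ψ : E →+* E) z) :=
    IsIntegral.map_of_comp_eq φ (Ψ : E →+* E) (RingHom.ext fun _ => rfl) hz'
  exact h

/-- The (INV) clause gives the stability of the maximal ideal of the valuation. -/
theorem ktf_nonunits_of_inv {E : Type*} [Field E] (V : ValuationSubring E) (σ : E ≃+* E)
    (hinv : ∀ z : E, z ≠ 0 → σ z / z ∈ V ∧ z / σ z ∈ V) :
    ∀ z ∈ V.nonunits, σ z ∈ V.nonunits := by
  intro z hz
  rcases eq_or_ne z 0 with rfl | hz0
  · rwa [map_zero]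
  · rw [ValuationSubring.mem_nonunits_iff] at hz ⊢
    have h1 := (V.valuation_le_one_iff _).mpr (hinv z hz0).1
    have e : σ z = σ z / z * z := by field_simp
    rw [e, map_mul]
    calc V.valuation (σ z / z) * V.valuation z ≤ 1 * V.valuation z := by gcongr
      _ = V.valuation z := one_mul _
      _ < 1 := hz

/-- The (INV) clause gives the stability of the valuation ring. -/
theorem ktf_mem_of_inv {E : Type*} [Field E] (V : ValuationSubring E) (σ : E ≃+* E)
    (hinv : ∀ z : E, z ≠ 0 → σ z / z ∈ V ∧ z / σ z ∈ V) :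
    ∀ z ∈ V, σ z ∈ V := by
  intro z hz
  rcases eq_or_ne z 0 with rfl | hz0
  · rwa [map_zero]
  · have e : σ z = σ z / z * z := by field_simp
    rw [e]
    exact V.mul_mem _ _ (hinv z hz0).1 hz

/-! ### Commutations -/

section Comm

variable (K₁ : Type) [Field K₁] [Algebra ℚ K₁] (M q : ℕ) [NeZero M] [NeZero q]

theorem ktf_coeffMap_qExpand {R S : Type*} [CommRing R] [CommRing S] (f : R →+* S) (n : ℕ)
    [NeZero n] (x : LaurentSeries R) :
    coeffMap f (qExpand R n x) = qExpand S n (coeffMap f x) := by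
  ext k
  by_cases hk : (n : ℤ) ∣ k
  · obtain ⟨m, rfl⟩ := hk
    rw [coeffMap_coeff, qExpand_coeff_mul, qExpand_coeff_mul, coeffMap_coeff]
  · rw [coeffMap_coeff, qExpand_coeff_of_not_dvd n _ hk, qExpand_coeff_of_not_dvd n _ hk,
      map_zero]

/-- `modelSigma` commutes with `α`. -/
theorem ktf_sigma_alpha (σ₁ : K₁ ≃ₐ[ℚ] K₁) (h : ModelField K₁ M) :
    modelSigma K₁ (M * q) σ₁ (heckeAlphaBar K₁ M q h) =
      heckeAlphaBar K₁ M q (modelSigma K₁ M σ₁ h) := by
  apply Subtype.ext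
  rw [coe_heckeAlphaBar]
  show coeffMap (σ₁ : K₁ →+* K₁) ((heckeAlphaBar K₁ M q h : ModelField K₁ (M * q)) :
    LaurentSeries K₁) = coeffMap (σ₁ : K₁ →+* K₁) (h : LaurentSeries K₁)
  rw [coe_heckeAlphaBar]

/-- `modelSigma` commutes with `β`. -/
theorem ktf_sigma_beta (σ₁ : K₁ ≃ₐ[ℚ] K₁) (h : ModelField K₁ M) :
    modelSigma K₁ (M * q) σ₁ (heckeBetaBar K₁ M q h) =
      heckeBetaBar K₁ M q (modelSigma K₁ M σ₁ h) := by
  apply Subtype.ext
  rw [coe_heckeBetaBar]
  show coeffMap (σ₁ : K₁ →+* K₁) ((heckeBetaBar K₁ M q h : ModelField K₁ (M * q)) :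
    LaurentSeries K₁) = qExpand K₁ q (coeffMap (σ₁ : K₁ →+* K₁) (h : LaurentSeries K₁))
  rw [coe_heckeBetaBar, ktf_coeffMap_qExpand]

end Comm

/-! ### Integrality -/

/-- `B(y) ⊆ B(x)` as soon as `y ∈ B(x)`. -/
theorem ktf_chartClosure_le_of_mem {A : Type} [CommRing A] {E : Type} [Field E] [Algebra A E]
    {x y : E} (hy : y ∈ chartClosure A E x) : chartClosure A E y ≤ chartClosure A E x := by
  intro z hz
  have hz' : IsIntegral (chartRing A E y) z := hz
  have hy' : IsIntegral (chartRing A E x) y := hy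
  have hsub : ∀ r ∈ chartRing A E y, r ∈ integralClosure (chartRing A E x) E := by
    intro r hr
    unfold chartRing at hr
    induction hr using Algebra.adjoin_induction with
    | mem u hu =>
      rw [Set.mem_singleton_iff.mp hu]
      exact hy'
    | algebraMap a =>
      have : algebraMap A E a =
          algebraMap (chartRing A E x) E (algebraMap A (chartRing A E x) a) := rfl
      rw [this]
      exact Subalgebra.algebraMap_mem _ _
    | add u v _ _ hu hv => exact Subalgebra.add_mem _ hu hv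
    | mul u v _ _ hu hv => exact Subalgebra.mul_mem _ hu hv
  let ι : chartRing A E y →+* integralClosure (chartRing A E x) E :=
    { toFun := fun r => ⟨(r : E), hsub _ r.2⟩
      map_one' := rfl
      map_mul' := fun _ _ => rfl
      map_zero' := rfl
      map_add' := fun _ _ => rfl }
  have h1 : IsIntegral (integralClosure (chartRing A E x) E) z := by
    obtain ⟨P, hP, hPz⟩ := hz'
    refine ⟨P.map ι, hP.map ι, ?_⟩
    rw [Polynomial.eval₂_map]
    exact hPz
  exact isIntegral_trans (R := chartRing A E x) (A := integralClosure (chartRing A E x) E) z h1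

/-- A ring homomorphism fixing `A` maps `B(x)` into `B(W x)`. -/
theorem ktf_map_chartClosure {A : Type} [CommRing A] {E : Type} [Field E] [Algebra A E]
    (W : E →+* E) (hA : ∀ a : A, W (algebraMap A E a) = algebraMap A E a) (x : E) :
    ∀ z ∈ chartClosure A E x, W z ∈ chartClosure A E (W x) := by
  have hR : ∀ r ∈ chartRing A E x, W r ∈ chartRing A E (W x) := by
    intro r hr
    unfold chartRing at hr ⊢
    induction hr using Algebra.adjoin_induction with
    | mem u hu =>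
      rw [Set.mem_singleton_iff.mp hu]
      exact Algebra.subset_adjoin rfl
    | algebraMap a =>
      rw [hA a]
      exact Subalgebra.algebraMap_mem _ a
    | add u v _ _ hu hv =>
      rw [map_add]
      exact Subalgebra.add_mem _ hu hv
    | mul u v _ _ hu hv =>
      rw [map_mul]
      exact Subalgebra.mul_mem _ hu hv
  intro z hz
  have hz' : IsIntegral (chartRing A E x) z := hz
  let φ : chartRing A E x →+* chartRing A E (W x) :=
    RingHom.restrict W (chartRing A E x) (chartRing A E (W x)) hR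
  have h : IsIntegral (chartRing A E (W x)) (W z) :=
    IsIntegral.map_of_comp_eq φ W (RingHom.ext fun _ => rfl) hz'
  exact h

section Model

variable {K₁ : Type} [Field K₁] [Algebra ℚ K₁] {A₀ : Type} [CommRing A₀] [IsDomain A₀]
  [Algebra A₀ K₁] [IsFractionRing A₀ K₁]
variable (M q : ℕ) [NeZero M] [NeZero q]
  [Algebra A₀ (ModelField K₁ (M * q))] [IsScalarTower A₀ K₁ (ModelField K₁ (M * q))]

/-- The coordinate `x = j` comes from level `M`. -/
theorem ktf_exists_level_coord (x : ModelField K₁ (M * q))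
    (hx : (x : LaurentSeries K₁) = coeffEmb K₁ jq) :
    ∃ x' : ModelField K₁ M, (x' : LaurentSeries K₁) = coeffEmb K₁ jq ∧
      heckeAlphaBar K₁ M q x' = x := by
  have hmem : coeffEmb K₁ jq ∈ laurentBaseChange K₁ (modularFunctionFieldFull M) := by
    have h := jqd_mem_full M (one_dvd M)
    rw [qExpand_one_apply] at h
    exact coeffEmb_mem_laurentBaseChange K₁ h
  refine ⟨⟨_, hmem⟩, rfl, ?_⟩
  apply Subtype.ext
  rw [coe_heckeAlphaBar, hx]

/-- (INT) `W x = j(t^q)` is integral over `A₀[x]`. -/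
theorem ktf_W_coord_mem (x : ModelField K₁ (M * q))
    (hx : (x : LaurentSeries K₁) = coeffEmb K₁ jq)
    (W : ModelField K₁ (M * q) ≃ₐ[K₁] ModelField K₁ (M * q)) (hW : IsAtkinLehnerModel K₁ M q W) :
    W x ∈ chartClosure A₀ (ModelField K₁ (M * q)) x := by
  obtain ⟨x', hx', hαx⟩ := ktf_exists_level_coord M q x hx
  rw [Fermat.Agent.H87.KL.mem_chartClosure_iff]
  refine Fermat.Agent.H66.SS.smi_gen x hx (W x) q ?_
  rw [← hαx, hW.1 x', coe_heckeBetaBar, hx', Fermat.Agent.H27.KLGB.coeffEmb_jq]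

/-- (INT) the Atkin-Lehner automorphism preserves `B(x)`. -/
theorem ktf_W_chart (x : ModelField K₁ (M * q))
    (hx : (x : LaurentSeries K₁) = coeffEmb K₁ jq)
    (W : ModelField K₁ (M * q) ≃ₐ[K₁] ModelField K₁ (M * q)) (hW : IsAtkinLehnerModel K₁ M q W) :
    ∀ z ∈ chartClosure A₀ (ModelField K₁ (M * q)) x,
      W z ∈ chartClosure A₀ (ModelField K₁ (M * q)) x := by
  intro z hz
  have hA : ∀ a : A₀, (W : ModelField K₁ (M * q) →+* ModelField K₁ (M * q))
      (algebraMap A₀ (ModelField K₁ (M * q)) a) = algebraMap A₀ (ModelField K₁ (M * q)) a := by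
    intro a
    rw [IsScalarTower.algebraMap_apply A₀ K₁ (ModelField K₁ (M * q))]
    exact W.commutes _
  have h1 := ktf_map_chartClosure (W : ModelField K₁ (M * q) →+* ModelField K₁ (M * q)) hA x z hz
  exact ktf_chartClosure_le_of_mem (ktf_W_coord_mem M q x hx W hW) h1

end Model

/-! ### The named inputs -/

/-- **(KR)** the Kronecker congruences on the two components: for `h` of level `M` in the Gauss
valuation ring, `α(h) ^ q ≡ β(φ h)` modulo `𝔪_{V_∞}` and `β(h) ^ q ≡ α(φ h)` modulo `𝔪_{V_0}`. -/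
def ModelKRStatement (M q : ℕ) [NeZero M] [NeZero q] : Prop :=
  ∀ (K₁ : Type) [Field K₁] [Algebra ℚ K₁] [FiniteDimensional ℚ K₁]
    (A₀ : Type) [CommRing A₀] [IsDomain A₀] [IsDiscreteValuationRing A₀]
    [Algebra A₀ K₁] [IsFractionRing A₀ K₁],
    Irreducible ((q : ℕ) : A₀) →
    ∀ (W : ModelField K₁ (M * q) ≃ₐ[K₁] ModelField K₁ (M * q)), IsAtkinLehnerModel K₁ M q W →
    ∀ (φ₁ : K₁ ≃ₐ[ℚ] K₁), IsModelFrobenius K₁ A₀ q φ₁ →
    ∀ h : ModelField K₁ M, h ∈ ktV K₁ A₀ M →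
      heckeAlphaBar K₁ M q h ^ q - heckeBetaBar K₁ M q (modelSigma K₁ M φ₁ h) ∈
        (ktV K₁ A₀ (M * q)).nonunits ∧
      heckeBetaBar K₁ M q h ^ q - heckeAlphaBar K₁ M q (modelSigma K₁ M φ₁ h) ∈
        (ktV0 K₁ A₀ M q W).nonunits

/-- **(FRAC-loc)** at a closed point `𝔪` of the chart `x = j` lying on both components, the
local ring of the branch `V_∞` is generated by level `M`: every `z ∈ B(x)` is, up to a
denominator `α(b) ∉ 𝔪`, congruent modulo `𝔪_{V_∞}` to some `α(a)`, with `α(a), α(b) ∈ B(x)`. -/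
def ModelFracLocStatement (M q : ℕ) [NeZero M] [NeZero q] : Prop :=
  ∀ (K₁ : Type) [Field K₁] [Algebra ℚ K₁] [FiniteDimensional ℚ K₁]
    (A₀ : Type) [CommRing A₀] [IsDomain A₀] [IsDiscreteValuationRing A₀]
    [Algebra A₀ K₁] [IsFractionRing A₀ K₁]
    [Algebra A₀ (ModelField K₁ (M * q))] [IsScalarTower A₀ K₁ (ModelField K₁ (M * q))],
    Irreducible ((q : ℕ) : A₀) →
    ∀ (x : ModelField K₁ (M * q)), (x : LaurentSeries K₁) = coeffEmb K₁ jq →
    ∀ (W : ModelField K₁ (M * q) ≃ₐ[K₁] ModelField K₁ (M * q)), IsAtkinLehnerModel K₁ M q W →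
    ∀ 𝔪 : Ideal (chartClosure A₀ (ModelField K₁ (M * q)) x), 𝔪.IsMaximal →
      algebraMap A₀ (chartClosure A₀ (ModelField K₁ (M * q)) x) ((q : ℕ) : A₀) ∈ 𝔪 →
      Through A₀ (ModelField K₁ (M * q)) x 𝔪 (ktV K₁ A₀ (M * q)) →
      Through A₀ (ModelField K₁ (M * q)) x 𝔪 (ktV0 K₁ A₀ M q W) →
      ∀ z ∈ chartClosure A₀ (ModelField K₁ (M * q)) x, ∃ a b : ModelField K₁ M,
        heckeAlphaBar K₁ M q a ∈ chartClosure A₀ (ModelField K₁ (M * q)) x ∧
        (∃ hb : heckeAlphaBar K₁ M q b ∈ chartClosure A₀ (ModelField K₁ (M * q)) x,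
          (⟨heckeAlphaBar K₁ M q b, hb⟩ : chartClosure A₀ (ModelField K₁ (M * q)) x) ∉ 𝔪) ∧
        heckeAlphaBar K₁ M q b * z - heckeAlphaBar K₁ M q a ∈ (ktV K₁ A₀ (M * q)).nonunits

/-- **FR-3 in the chart `x = j`** : the statement. -/
def ModelFrobNodeChartStatement (M q : ℕ) [NeZero M] [NeZero q] : Prop :=
  ∀ (K₁ : Type) [Field K₁] [Algebra ℚ K₁] [FiniteDimensional ℚ K₁]
    (A₀ : Type) [CommRing A₀] [IsDomain A₀] [IsDiscreteValuationRing A₀]
    [Algebra A₀ K₁] [IsFractionRing A₀ K₁]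
    [Algebra A₀ (ModelField K₁ (M * q))] [IsScalarTower A₀ K₁ (ModelField K₁ (M * q))],
    Irreducible ((q : ℕ) : A₀) →
    ∀ (x : ModelField K₁ (M * q)), (x : LaurentSeries K₁) = coeffEmb K₁ jq →
    ∀ (W : ModelField K₁ (M * q) ≃ₐ[K₁] ModelField K₁ (M * q)), IsAtkinLehnerModel K₁ M q W →
    ∀ (φ₁ : K₁ ≃ₐ[ℚ] K₁), IsModelFrobenius K₁ A₀ q φ₁ →
      ∀ 𝔪 : Ideal (chartClosure A₀ (ModelField K₁ (M * q)) x), 𝔪.IsMaximal →
        algebraMap A₀ (chartClosure A₀ (ModelField K₁ (M * q)) x) ((q : ℕ) : A₀) ∈ 𝔪 →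
        Through A₀ (ModelField K₁ (M * q)) x 𝔪 (ktV K₁ A₀ (M * q)) →
        Through A₀ (ModelField K₁ (M * q)) x 𝔪 (ktV0 K₁ A₀ M q W) →
        ∀ s : chartClosure A₀ (ModelField K₁ (M * q)) x, s ∈ 𝔪 →
          ∀ h : modelSigma K₁ (M * q) (φ₁.trans φ₁) (s : ModelField K₁ (M * q)) ∈
              chartClosure A₀ (ModelField K₁ (M * q)) x,
            (⟨modelSigma K₁ (M * q) (φ₁.trans φ₁) (s : ModelField K₁ (M * q)), h⟩ :
              chartClosure A₀ (ModelField K₁ (M * q)) x) ∈ 𝔪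

/-! ### FR-3 in the chart `x` -/

/-- **FR-3 in the chart `x = j`** from (INV) [in `ModelVal2Statement`], (KR) and (FRAC-loc). -/
theorem ktf_node_chart (M q : ℕ) [NeZero M] [NeZero q] (hq : q.Prime)
    (hVal : ModelVal2Statement M q) (hKR : ModelKRStatement M q)
    (hFrac : ModelFracLocStatement M q) : ModelFrobNodeChartStatement M q := by
  intro K₁ _ _ _ A₀ _ _ _ _ _ _ _ hirr x hx W hW φ₁ hφ 𝔪 h𝔪 hq𝔪 hT₁ hT₂
  haveI : Fact q.Prime := ⟨hq⟩
  haveI : 𝔪.IsPrime := h𝔪.isPrime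
  obtain ⟨-, -, -, -, hvert₁, -, -, hinv₁, -, hinv', hT1a, -, -, -⟩ :=
    hVal K₁ A₀ hirr x hx W hW φ₁ hφ
  have hΨσ : ∀ z : ModelField K₁ (M * q), modelSigma K₁ (M * q) (φ₁.trans φ₁) z =
      modelSigma K₁ (M * q) φ₁ (modelSigma K₁ (M * q) φ₁ z) :=
    fun z => ktf_psi_apply (M * q) φ₁ z
  -- `Ψ`, `σ` preserve `B(x)`
  have hΨB : ∀ z ∈ chartClosure A₀ (ModelField K₁ (M * q)) x,
      modelSigma K₁ (M * q) (φ₁.trans φ₁) z ∈ chartClosure A₀ (ModelField K₁ (M * q)) x :=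
    ktf_chart_preserves (modelSigma K₁ (M * q) (φ₁.trans φ₁)) (ktf_psi_preserves (M * q) hφ)
      (ktf_psi_fix (M * q) φ₁ jq x hx)
  have hσA : ∀ a : A₀, ∃ b : A₀, modelSigma K₁ (M * q) φ₁
      (algebraMap A₀ (ModelField K₁ (M * q)) a) = algebraMap A₀ (ModelField K₁ (M * q)) b := by
    intro a
    obtain ⟨b, hb, -⟩ := hφ a
    refine ⟨b, ?_⟩
    rw [ktf_sigma_algebraMap, IsScalarTower.algebraMap_apply A₀ K₁ (ModelField K₁ (M * q)) b, hb]
  have hσB : ∀ z ∈ chartClosure A₀ (ModelField K₁ (M * q)) x,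
      modelSigma K₁ (M * q) φ₁ z ∈ chartClosure A₀ (ModelField K₁ (M * q)) x :=
    ktf_chart_preserves (modelSigma K₁ (M * q) φ₁) hσA (ktf_sigma_fix (M * q) φ₁ jq x hx)
  -- `Ψ` preserves the maximal ideal of `V_∞`
  have hσV := ktf_nonunits_of_inv (ktV K₁ A₀ (M * q)) (modelSigma K₁ (M * q) φ₁) hinv₁
  have hΨV : ∀ z ∈ (ktV K₁ A₀ (M * q)).nonunits,
      modelSigma K₁ (M * q) (φ₁.trans φ₁) z ∈ (ktV K₁ A₀ (M * q)).nonunits := by
    intro z hz
    rw [hΨσ]
    exact hσV _ (hσV _ hz)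
  -- `B(x) ⊆ V_∞`
  have htr : Transcendental A₀ x := Fermat.Agent.H58.modelTranscendental_jq (M * q) K₁ A₀ x hx
  have hBV : ∀ z ∈ chartClosure A₀ (ModelField K₁ (M * q)) x, z ∈ ktV K₁ A₀ (M * q) :=
    fun z hz => hvert₁.2.2.1 z (Fermat.Agent.H89.klg_chartClosure_le_gaussClosure hirr htr hz)
  -- the characteristic
  have hq𝔪' : ((q : ℕ) : chartClosure A₀ (ModelField K₁ (M * q)) x) ∈ 𝔪 := by
    have h := hq𝔪
    rwa [map_natCast] at h
  -- Kronecker twice
  have hcompat : ∀ a : ModelField K₁ M,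
      heckeAlphaBar K₁ M q a ∈ chartClosure A₀ (ModelField K₁ (M * q)) x →
      Fermat.Agent.H71.SS.ChartFrobCompat A₀ (ModelField K₁ (M * q)) x 𝔪
        (modelSigma K₁ (M * q) (φ₁.trans φ₁)) (q ^ 2) (heckeAlphaBar K₁ M q a) := by
    intro a ha
    have haV : a ∈ ktV K₁ A₀ M := (hT1a a).mp (hBV _ ha)
    have hΦaV : modelSigma K₁ M φ₁ a ∈ ktV K₁ A₀ M := ktf_mem_of_inv _ _ hinv' a haV
    have hβ : heckeBetaBar K₁ M q (modelSigma K₁ M φ₁ a) ∈
        chartClosure A₀ (ModelField K₁ (M * q)) x := by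
      rw [← hW.1, ← ktf_sigma_alpha]
      exact ktf_W_chart M q x hx W hW _ (hσB _ ha)
    have hΨα : modelSigma K₁ (M * q) (φ₁.trans φ₁) (heckeAlphaBar K₁ M q a) =
        heckeAlphaBar K₁ M q (modelSigma K₁ M φ₁ (modelSigma K₁ M φ₁ a)) := by
      rw [hΨσ, ktf_sigma_alpha, ktf_sigma_alpha]
    refine Fermat.Agent.H71.SS.frobNode_kronecker hT₁ hT₂ ha hβ (hΨB _ ha)
      (hKR K₁ A₀ hirr W hW φ₁ hφ a haV).1 ?_
    rw [hΨα]
    exact (hKR K₁ A₀ hirr W hW φ₁ hφ _ hΦaV).2
  refine Fermat.Agent.H71.SS.frobNode_map_mem x 𝔪 q hq𝔪' 2 (ktV K₁ A₀ (M * q)) hT₁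
    (modelSigma K₁ (M * q) (φ₁.trans φ₁)) hΨB hΨV ?_
  intro z hz
  obtain ⟨a, b, ha, ⟨hb, hbm⟩, hr⟩ := hFrac K₁ A₀ hirr x hx W hW 𝔪 h𝔪 hq𝔪 hT₁ hT₂ z hz
  exact ⟨heckeAlphaBar K₁ M q a, heckeAlphaBar K₁ M q b, hcompat a ha, hcompat b hb,
    fun _ => hbm, hr⟩

end Fermat.Agent.H65.SS
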