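/-
P-SS row 973 (KT-C3 FROB), helper65, part 3: the packaging of
`Fermat.Agent.H55.SS.ModelFrobStatement M q`.

* `ModelFrobNodeStatement M q` : clause 5 of `ModelFrobStatement` (FR-3, the nodes are fixed by
  `Ψ`), verbatim.
* `modelFrob_of_node` : `ModelFrobNodeStatement M q → ModelFrobStatement M q`; the clauses 1-4
  (`Ψ`, `Ψ⁻¹` preserve `A₀`, `Ψ x = x`, `Ψ c = c ^ (q ^ 2)` on the roots of unity of order prime to
  `q`) are unconditional.
-/
import Mathlib
import Fermat.Agent.H55.SS.KTModel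
import Fermat.Agent.H65.SS.KtFrobBasic

set_option autoImplicit false
set_option linter.style.haveILetI false
set_option linter.unusedSectionVars false

noncomputable section

namespace Fermat.Agent.H65.SS

open ModularCurve AlgebraicCurve
open Fermat.Agent.H22.KL Fermat.Agent.H11.SS2 Fermat.Agent.H55.SS Fermat.Agent.H82.SS

/-- **FR-3** (clause 5 of `Fermat.Agent.H55.SS.ModelFrobStatement`): `Ψ = φ₁²` fixes the closed
points of the special fibre lying on both components. -/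
def ModelFrobNodeStatement (M q : ℕ) [NeZero M] [NeZero q] : Prop :=
  ∀ (K₁ : Type) [Field K₁] [Algebra ℚ K₁] [FiniteDimensional ℚ K₁]
    (A₀ : Type) [CommRing A₀] [IsDomain A₀] [IsDiscreteValuationRing A₀]
    [Algebra A₀ K₁] [IsFractionRing A₀ K₁]
    [Algebra A₀ (ModelField K₁ (M * q))] [IsScalarTower A₀ K₁ (ModelField K₁ (M * q))],
    Irreducible ((q : ℕ) : A₀) →
    ∀ (x : ModelField K₁ (M * q)), (x : LaurentSeries K₁) = coeffEmb K₁ jq →
    ∀ (W : ModelField K₁ (M * q) ≃ₐ[K₁] ModelField K₁ (M * q)), IsAtkinLehnerModel K₁ M q W →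
    ∀ (φ₁ : K₁ ≃ₐ[ℚ] K₁), IsModelFrobenius K₁ A₀ q φ₁ →
      (∀ y : ModelField K₁ (M * q), y = x ∨ y = x⁻¹ →
        ∀ 𝔪 : Ideal (chartClosure A₀ (ModelField K₁ (M * q)) y), 𝔪.IsMaximal →
          algebraMap A₀ (chartClosure A₀ (ModelField K₁ (M * q)) y) ((q : ℕ) : A₀) ∈ 𝔪 →
          Through A₀ (ModelField K₁ (M * q)) y 𝔪 (ktV K₁ A₀ (M * q)) →
          Through A₀ (ModelField K₁ (M * q)) y 𝔪 (ktV0 K₁ A₀ M q W) →
          ∀ s : chartClosure A₀ (ModelField K₁ (M * q)) y, s ∈ 𝔪 →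
            ∀ h : modelSigma K₁ (M * q) (φ₁.trans φ₁) (s : ModelField K₁ (M * q)) ∈
                chartClosure A₀ (ModelField K₁ (M * q)) y,
              (⟨modelSigma K₁ (M * q) (φ₁.trans φ₁) (s : ModelField K₁ (M * q)), h⟩ :
                chartClosure A₀ (ModelField K₁ (M * q)) y) ∈ 𝔪)

/-- **KT-C3 (FROB)** from FR-3: the clauses 1-4 of `ModelFrobStatement` are unconditional. -/
theorem modelFrob_of_node (M q : ℕ) [NeZero M] [NeZero q] (hnode : ModelFrobNodeStatement M q) :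
    ModelFrobStatement M q := by
  intro K₁ _ _ _ A₀ _ _ _ _ _ _ _ hirr x hx W hW φ₁ hφ
  refine ⟨ktf_psi_preserves (M * q) hφ, ktf_psi_symm_preserves (M * q) hφ,
    ktf_psi_fix (M * q) φ₁ jq x hx, ?_, hnode K₁ A₀ hirr x hx W hW φ₁ hφ⟩
  intro n hn c hc
  exact ktf_psi_root (M * q) hφ hn hc

end Fermat.Agent.H65.SS
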