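/-
P-SS row 973 (KT-C3 FROB), helper65, part 5: FR-3 in both charts and the row theorem.

* `modelKR` : (KR) is unconditional (helper71's `ktKronecker_inf`, `ktKronecker_zero`).
* `ktf_cusp_not_node` : a closed point of the chart `x⁻¹` containing `x⁻¹` (a cusp) does not lie
  on both components (separation by `ρ = x⁻¹ ^ q * x_q`, helper46's CUSP-RHO).
* `ktf_node_transfer` : FR-3 at the closed points of the chart `x⁻¹` not containing `x⁻¹` from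
  FR-3 in the chart `x` (helper66's chart transfer).
* `modelFrobNode`, `modelFrob` : `ModelFrobStatement M q` from `ModelVal2Statement M q` (KT-C1)
  and (FRAC-loc).
-/
import Mathlib
import Fermat.Agent.H65.SS.KtFrobNode
import Fermat.Agent.H65.SS.KtFrobModel
import Fermat.Agent.H71.SS.KtKronecker
import Fermat.Agent.H66.SS.ChartTransfer
import Fermat.Agent.H46.SS.CuspRho

set_option autoImplicit false
set_option linter.style.haveILetI false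
set_option linter.unusedSectionVars false

noncomputable section

namespace Fermat.Agent.H65.SS

open ModularCurve AlgebraicCurve Polynomial
open Fermat.Agent.H22.KL Fermat.Agent.H11.SS2 Fermat.Agent.H55.SS Fermat.Agent.H82.SS
open Fermat.Agent.H66.CT

/-- **(KR)** is unconditional. -/
theorem modelKR (M q : ℕ) [NeZero M] [NeZero q] (hq : q.Prime) : ModelKRStatement M q := by
  intro K₁ _ _ _ A₀ _ _ _ _ _ hirr W hW φ₁ hφ h hh
  exact ⟨Fermat.Agent.H71.SS.ktKronecker_inf A₀ M q hq hirr.not_isUnit hφ hh,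
    Fermat.Agent.H71.SS.ktKronecker_zero A₀ M q hq hirr.not_isUnit hW hφ hh⟩

/-! ### Valuation helpers -/

theorem ktf_nu_mul {E : Type*} [Field E] {V : ValuationSubring E} {a b : E} (ha : a ∈ V)
    (hb : b ∈ V.nonunits) : a * b ∈ V.nonunits := by
  rw [ValuationSubring.mem_nonunits_iff] at hb ⊢
  have h1 := (V.valuation_le_one_iff a).mpr ha
  rw [map_mul]
  calc V.valuation a * V.valuation b ≤ 1 * V.valuation b := by gcongr
    _ = V.valuation b := one_mul _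
    _ < 1 := hb

/-- `x⁻¹` lies in the Gauss closure of the chart `x`. -/
theorem ktf_inv_mem_gaussClosure {A : Type} [CommRing A] [IsDomain A] {E : Type} [Field E]
    [Algebra A E] {ϖ : A} (hϖ : Irreducible ϖ) {x : E} (hx : Transcendental A x) :
    x⁻¹ ∈ gaussClosure A E ϖ x := by
  have hx0 : x ≠ 0 := by
    rintro rfl
    exact hx (isAlgebraic_zero)
  refine ⟨x, Algebra.subset_adjoin rfl, ?_, ?_⟩
  · intro h
    have h1 : Fermat.Agent.H67.KLConn.PiDvd ϖ (chartRing A E x) 1 (aeval x (X : A[X])) := by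
      rwa [aeval_X]
    have h2 := (Fermat.Agent.H89.klg_piDvd_aeval_iff hx ϖ X).mp h1
    have h3 := (Polynomial.C_dvd_iff_dvd_coeff ϖ X).mp h2 1
    rw [coeff_X_one] at h3
    exact hϖ.not_isUnit (isUnit_of_dvd_one h3)
  · rw [mul_inv_cancel₀ hx0]
    exact Subalgebra.one_mem _

/-! ### Chart transfer of FR-3 -/

/-- Transfer of `Through` from the chart `x⁻¹` to the chart `x`. -/
theorem ktf_through_transfer {A : Type} [CommRing A] {E : Type} [Field E] [Algebra A E]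
    {x : E} (hx0 : x ≠ 0) (V : ValuationSubring E) (hxV : x⁻¹ ∈ V)
    (𝔪 : Ideal (chartClosure A E x⁻¹)) (hT : Through A E x⁻¹ 𝔪 V) :
    Through A E x (ctIdeal x hx0 𝔪) V := by
  intro s hs
  rw [mem_ctIdeal]
  obtain ⟨k, hk⟩ := Fermat.Agent.H85.klc_overlap hx0 (s : E) s.2
  exact ⟨k, hk, hT ⟨_, hk⟩ (ktf_nu_mul (V.toSubring.pow_mem hxV k) hs)⟩

/-- **FR-3 at the closed points of the chart `x⁻¹` not containing `x⁻¹`**, from FR-3 in the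
chart `x`. -/
theorem ktf_node_transfer {A : Type} [CommRing A] [IsDomain A] [IsDiscreteValuationRing A]
    {E : Type} [Field E] [Algebra A E] {ϖ : A} (hϖ : Irreducible ϖ) {x : E} (hx0 : x ≠ 0)
    (Ψ : E ≃+* E) (hΨx : Ψ x = x)
    (hΨB : ∀ z ∈ chartClosure A E x, Ψ z ∈ chartClosure A E x)
    (V₁ V₂ : ValuationSubring E) (hxV₁ : x⁻¹ ∈ V₁) (hxV₂ : x⁻¹ ∈ V₂)
    (hchart : ∀ 𝔪' : Ideal (chartClosure A E x), 𝔪'.IsMaximal →
      algebraMap A (chartClosure A E x) ϖ ∈ 𝔪' →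
      Through A E x 𝔪' V₁ → Through A E x 𝔪' V₂ →
      ∀ s : chartClosure A E x, s ∈ 𝔪' → ∀ h : Ψ (s : E) ∈ chartClosure A E x,
        (⟨Ψ (s : E), h⟩ : chartClosure A E x) ∈ 𝔪')
    (𝔪 : Ideal (chartClosure A E x⁻¹)) (h𝔪 : 𝔪.IsMaximal)
    (hϖ𝔪 : algebraMap A (chartClosure A E x⁻¹) ϖ ∈ 𝔪)
    (hun : x⁻¹ ∉ ctImg (chartClosure A E x⁻¹) 𝔪)
    (hT₁ : Through A E x⁻¹ 𝔪 V₁) (hT₂ : Through A E x⁻¹ 𝔪 V₂) :
    ∀ s : chartClosure A E x⁻¹, s ∈ 𝔪 → ∀ h : Ψ (s : E) ∈ chartClosure A E x⁻¹,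
      (⟨Ψ (s : E), h⟩ : chartClosure A E x⁻¹) ∈ 𝔪 := by
  haveI : 𝔪.IsPrime := h𝔪.isPrime
  intro s hs h
  have hmax := ctIdeal_isMaximal hϖ hx0 h𝔪 hϖ𝔪 hun
  have hpi := ctIdeal_pi (𝔪 := 𝔪) hx0 hϖ𝔪
  have hT₁' := ktf_through_transfer hx0 V₁ hxV₁ 𝔪 hT₁
  have hT₂' := ktf_through_transfer hx0 V₂ hxV₂ 𝔪 hT₂
  -- move `s` to the chart `x`
  obtain ⟨j, hj⟩ := Fermat.Agent.H85.klc_overlap (inv_ne_zero hx0) (s : E) s.2
  rw [inv_inv] at hj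
  have hpow : x⁻¹ ^ j * x ^ j = 1 := by
    rw [← mul_pow, inv_mul_cancel₀ hx0, one_pow]
  have hs' : (⟨x ^ j * (s : E), hj⟩ : chartClosure A E x) ∈ ctIdeal x hx0 𝔪 := by
    rw [mem_ctIdeal]
    refine ⟨j, ?_⟩
    show x⁻¹ ^ j * (x ^ j * (s : E)) ∈ ctImg (chartClosure A E x⁻¹) 𝔪
    rw [← mul_assoc, hpow, one_mul]
    exact (ctImg_coe s).mpr hs
  have h1 := hchart _ hmax hpi hT₁' hT₂' _ hs' (hΨB _ hj)
  rw [mem_ctIdeal] at h1
  have h2 : Ψ (x ^ j * (s : E)) = x ^ j * Ψ (s : E) := by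
    rw [map_mul, map_pow, hΨx]
  have h3 : x ^ j * Ψ (s : E) ∈ ctSet x 𝔪 := by
    have h4 : Ψ (x ^ j * (s : E)) ∈ ctSet x 𝔪 := h1
    rwa [h2] at h4
  have h5 : x⁻¹ ^ j * (x ^ j * Ψ (s : E)) = Ψ (s : E) := by
    rw [← mul_assoc, hpow, one_mul]
  have h6 := ctSet_all hun h3 j (by rw [h5]; exact h)
  rw [h5] at h6
  exact h6.2

/-! ### Cusps are not nodes -/

/-- **(CUSP)** a closed point of the chart `x⁻¹` containing `x⁻¹` does not lie on both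
components `V_∞`, `V_0`. -/
theorem ktf_cusp_not_node (M q : ℕ) [NeZero M] [NeZero q] (hq : q.Prime)
    (K₁ : Type) [Field K₁] [Algebra ℚ K₁] [FiniteDimensional ℚ K₁]
    (A₀ : Type) [CommRing A₀] [IsDomain A₀] [IsDiscreteValuationRing A₀]
    [Algebra A₀ K₁] [IsFractionRing A₀ K₁]
    [Algebra A₀ (ModelField K₁ (M * q))] [IsScalarTower A₀ K₁ (ModelField K₁ (M * q))]
    (hirr : Irreducible ((q : ℕ) : A₀))
    (x : ModelField K₁ (M * q)) (hx : (x : LaurentSeries K₁) = coeffEmb K₁ jq)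
    (W : ModelField K₁ (M * q) ≃ₐ[K₁] ModelField K₁ (M * q)) (hW : IsAtkinLehnerModel K₁ M q W)
    (φ₁ : K₁ ≃ₐ[ℚ] K₁) (hφ : IsModelFrobenius K₁ A₀ q φ₁)
    (hxV₁ : x⁻¹ ∈ ktV K₁ A₀ (M * q)) (hxV₂ : x⁻¹ ∈ ktV0 K₁ A₀ M q W)
    (𝔪 : Ideal (chartClosure A₀ (ModelField K₁ (M * q)) x⁻¹)) (h𝔪 : 𝔪.IsMaximal)
    (hxm : x⁻¹ ∈ ctImg (chartClosure A₀ (ModelField K₁ (M * q)) x⁻¹) 𝔪)
    (hT₁ : Through A₀ (ModelField K₁ (M * q)) x⁻¹ 𝔪 (ktV K₁ A₀ (M * q)))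
    (hT₂ : Through A₀ (ModelField K₁ (M * q)) x⁻¹ 𝔪 (ktV0 K₁ A₀ M q W)) : False := by
  haveI : 𝔪.IsPrime := h𝔪.isPrime
  obtain ⟨x', hx', hαx⟩ := ktf_exists_level_coord M q x hx
  have hx0 : x ≠ 0 := by
    intro h0
    have h1 : (x : LaurentSeries K₁).coeff (-1) = 0 := by rw [h0]; rfl
    rw [hx, coeffEmb_coeff, ModularCurve.coeff_jq_neg_one, map_one] at h1
    exact one_ne_zero h1
  have hx'V : x' ∈ ktV K₁ A₀ M := by
    rw [mem_ktV_iff, hx', Fermat.Agent.H65.mg_coeffEmb_jq]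
    exact Fermat.Agent.H66.vIota_mem_vGaussRing _ _
  have hΦ : modelSigma K₁ M φ₁ x' = x' := ktf_sigma_fix M φ₁ jq x' hx'
  have hβ : heckeBetaBar K₁ M q x' = W x := by rw [← hαx, hW.1]
  have k1 := Fermat.Agent.H71.SS.ktKronecker_inf A₀ M q hq hirr.not_isUnit hφ hx'V
  have k2 := Fermat.Agent.H71.SS.ktKronecker_zero A₀ M q hq hirr.not_isUnit hW hφ hx'V
  rw [hΦ, hαx, hβ] at k1 k2
  have hxq : ((W x : ModelField K₁ (M * q)) : LaurentSeries K₁) =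
      qExpand K₁ q (coeffEmb K₁ jq) := by
    rw [← hβ, coe_heckeBetaBar, hx']
  have hρ : x⁻¹ ^ q * W x ∈ chartClosure A₀ (ModelField K₁ (M * q)) x⁻¹ :=
    Fermat.Agent.H46.SS.modelCuspRho M q hq K₁ A₀ x (W x) hx hxq
  have hself : x⁻¹ ∈ chartClosure A₀ (ModelField K₁ (M * q)) x⁻¹ := ct_self_mem x⁻¹
  have hpow : ∀ n : ℕ, x⁻¹ ^ n * x ^ n = 1 := fun n => by
    rw [← mul_pow, inv_mul_cancel₀ hx0, one_pow]
  -- `1 - ρ ∈ 𝔪`
  have e1 : 1 - x⁻¹ ^ q * W x = x⁻¹ ^ q * (x ^ q - W x) := by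
    rw [mul_sub, hpow]
  have m1 : 1 - x⁻¹ ^ q * W x ∈ ctImg (chartClosure A₀ (ModelField K₁ (M * q)) x⁻¹) 𝔪 := by
    have hmem : 1 - x⁻¹ ^ q * W x ∈ chartClosure A₀ (ModelField K₁ (M * q)) x⁻¹ :=
      Subalgebra.sub_mem _ (Subalgebra.one_mem _) hρ
    refine ⟨hmem, hT₁ ⟨_, hmem⟩ ?_⟩
    show 1 - x⁻¹ ^ q * W x ∈ (ktV K₁ A₀ (M * q)).nonunits
    rw [e1]
    exact ktf_nu_mul ((ktV K₁ A₀ (M * q)).toSubring.pow_mem hxV₁ q) k1
  -- `ρ ^ q - x⁻¹ ^ (q ^ 2 - 1) ∈ 𝔪`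
  obtain ⟨n, hn⟩ : ∃ n : ℕ, q ^ 2 = n + 1 :=
    ⟨q ^ 2 - 1, (Nat.sub_add_cancel (Nat.one_le_pow _ _ hq.pos)).symm⟩
  have hn0 : n ≠ 0 := by
    rintro rfl
    have h2 : 2 ≤ q := hq.two_le
    nlinarith
  have e2 : (x⁻¹ ^ q * W x) ^ q - x⁻¹ ^ n = x⁻¹ ^ (q ^ 2) * ((W x) ^ q - x) := by
    have h3 : x⁻¹ ^ (q ^ 2) * x = x⁻¹ ^ n := by
      rw [hn, pow_succ, mul_assoc, inv_mul_cancel₀ hx0, mul_one]
    rw [mul_sub, h3, mul_pow, ← pow_mul, sq]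
  have m2 : (x⁻¹ ^ q * W x) ^ q - x⁻¹ ^ n ∈
      ctImg (chartClosure A₀ (ModelField K₁ (M * q)) x⁻¹) 𝔪 := by
    have hmem : (x⁻¹ ^ q * W x) ^ q - x⁻¹ ^ n ∈ chartClosure A₀ (ModelField K₁ (M * q)) x⁻¹ :=
      Subalgebra.sub_mem _ (Subalgebra.pow_mem _ hρ q) (Subalgebra.pow_mem _ hself n)
    refine ⟨hmem, hT₂ ⟨_, hmem⟩ ?_⟩
    show (x⁻¹ ^ q * W x) ^ q - x⁻¹ ^ n ∈ (ktV0 K₁ A₀ M q W).nonunits
    rw [e2]
    exact ktf_nu_mul ((ktV0 K₁ A₀ M q W).toSubring.pow_mem hxV₂ (q ^ 2)) k2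
  have m3 : x⁻¹ ^ n ∈ ctImg (chartClosure A₀ (ModelField K₁ (M * q)) x⁻¹) 𝔪 := by
    obtain ⟨m, rfl⟩ := Nat.exists_eq_succ_of_ne_zero hn0
    rw [pow_succ]
    exact ctImg_mul_left (Subalgebra.pow_mem _ hself m) hxm
  have m4 : (x⁻¹ ^ q * W x) ^ q ∈ ctImg (chartClosure A₀ (ModelField K₁ (M * q)) x⁻¹) 𝔪 := by
    have := ctImg_add m2 m3
    rwa [sub_add_cancel] at this
  have m5 : x⁻¹ ^ q * W x ∈ ctImg (chartClosure A₀ (ModelField K₁ (M * q)) x⁻¹) 𝔪 := by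
    by_contra h
    exact ctImg_pow_notMem hρ h q m4
  have m6 : (1 : ModelField K₁ (M * q)) ∈
      ctImg (chartClosure A₀ (ModelField K₁ (M * q)) x⁻¹) 𝔪 := by
    have := ctImg_add m1 m5
    rwa [sub_add_cancel] at this
  exact ctImg_one_notMem h𝔪.ne_top m6

/-! ### The row theorem -/

/-- **FR-3** (both charts) from `ModelVal2Statement M q` (KT-C1) and (FRAC-loc). -/
theorem modelFrobNode (M q : ℕ) [NeZero M] [NeZero q] (hq : q.Prime)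
    (hVal : ModelVal2Statement M q) (hFrac : ModelFracLocStatement M q) :
    ModelFrobNodeStatement M q := by
  intro K₁ _ _ _ A₀ _ _ _ _ _ _ _ hirr x hx W hW φ₁ hφ y hy 𝔪 h𝔪 hq𝔪 hT₁ hT₂
  have hchart := ktf_node_chart M q hq hVal (modelKR M q hq) hFrac K₁ A₀ hirr x hx W hW φ₁ hφ
  rcases hy with hy | hy
  · subst hy
    exact hchart 𝔪 h𝔪 hq𝔪 hT₁ hT₂
  · subst hy
    obtain ⟨-, -, -, -, hvert₁, hvert₂, -⟩ := hVal K₁ A₀ hirr x hx W hW φ₁ hφ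
    have htr : Transcendental A₀ x :=
      Fermat.Agent.H58.modelTranscendental_jq (M * q) K₁ A₀ x hx
    have hx0 : x ≠ 0 := by
      rintro rfl
      exact htr isAlgebraic_zero
    have hxV₁ : x⁻¹ ∈ ktV K₁ A₀ (M * q) :=
      hvert₁.2.2.1 _ (ktf_inv_mem_gaussClosure hirr htr)
    have hxV₂ : x⁻¹ ∈ ktV0 K₁ A₀ M q W :=
      hvert₂.2.2.1 _ (ktf_inv_mem_gaussClosure hirr htr)
    by_cases hxm : x⁻¹ ∈ ctImg (chartClosure A₀ (ModelField K₁ (M * q)) x⁻¹) 𝔪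
    · exact (ktf_cusp_not_node M q hq K₁ A₀ hirr x hx W hW φ₁ hφ hxV₁ hxV₂ 𝔪 h𝔪 hxm
        hT₁ hT₂).elim
    · exact ktf_node_transfer hirr hx0 (modelSigma K₁ (M * q) (φ₁.trans φ₁))
        (ktf_psi_fix (M * q) φ₁ jq x hx)
        (ktf_chart_preserves (modelSigma K₁ (M * q) (φ₁.trans φ₁))
          (ktf_psi_preserves (M * q) hφ) (ktf_psi_fix (M * q) φ₁ jq x hx))
        (ktV K₁ A₀ (M * q)) (ktV0 K₁ A₀ M q W) hxV₁ hxV₂ hchart 𝔪 h𝔪 hq𝔪 hxm hT₁ hT₂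

/-- **KT-C3 (FROB)**, row 973: `ModelFrobStatement M q` from `ModelVal2Statement M q` (KT-C1)
and (FRAC-loc). -/
theorem modelFrob (M q : ℕ) [NeZero M] [NeZero q] (hq : q.Prime)
    (hVal : ModelVal2Statement M q) (hFrac : ModelFracLocStatement M q) :
    ModelFrobStatement M q :=
  modelFrob_of_node M q (modelFrobNode M q hq hVal hFrac)

end Fermat.Agent.H65.SS
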