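/-
P-SS row 973 (KT-C3 FROB), helper65, part 6: the POINTWISE form of the row theorem.

Everything in `ModelFrobStatement M q` is pointwise in the data `(K₁, A₀, x, W, φ₁)`.  Since the
only open input (FRAC-loc) may be available for special `K₁` only (e.g. `K₁` containing roots of
unity), the row theorem is given here at a fixed `(K₁, A₀, x, W, φ₁)`:

* `FracLocAt M q K₁ A₀ x W` : (FRAC-loc) at `(K₁, A₀, x, W)`;
* `FrobAt M q K₁ A₀ x W φ₁` : the five clauses of `ModelFrobStatement M q` at the point;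
* `frobAt_of_fracLocAt` : `FracLocAt → FrobAt` for `q` prime, `q ∤ M` (KT-C1 = helper34's
  unconditional `modelVal2`, KR = helper71, CUSP-RHO = helper46, chart transfer = helper66);
* `modelFrob_of_fracLoc` : `ModelFracLocStatement M q → ModelFrobStatement M q`;
* `ModelFracLocRootsStatement M q R`, `ModelFrobRootsStatement M q R`, `modelFrobRoots` : the
  same for the fields `K₁` containing a primitive `R`-th root of unity.
-/
import Mathlib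
import Fermat.Agent.H65.SS.KtFrobFinal
import Fermat.Agent.H34.SS.ModelVal2

set_option autoImplicit false
set_option linter.style.haveILetI false
set_option linter.unusedSectionVars false

noncomputable section

namespace Fermat.Agent.H65.SS

open ModularCurve AlgebraicCurve Polynomial
open Fermat.Agent.H22.KL Fermat.Agent.H11.SS2 Fermat.Agent.H55.SS Fermat.Agent.H82.SS
open Fermat.Agent.H66.CT

section Point

variable (M q : ℕ) [NeZero M] [NeZero q]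
  (K₁ : Type) [Field K₁] [Algebra ℚ K₁]
  (A₀ : Type) [CommRing A₀] [IsDomain A₀] [IsDiscreteValuationRing A₀]
  [Algebra A₀ K₁] [IsFractionRing A₀ K₁]
  [Algebra A₀ (ModelField K₁ (M * q))]

/-- **(FRAC-loc) at the point `(K₁, A₀, x, W)`**: at a closed point `𝔪` of the chart `x` lying
on both components, every `z ∈ B(x)` is, up to a denominator `α(b) ∉ 𝔪`, congruent modulo
`𝔪_{V_∞}` to some `α(a)`, with `α(a), α(b) ∈ B(x)`. -/
def FracLocAt (x : ModelField K₁ (M * q))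
    (W : ModelField K₁ (M * q) ≃ₐ[K₁] ModelField K₁ (M * q)) : Prop :=
  ∀ 𝔪 : Ideal (chartClosure A₀ (ModelField K₁ (M * q)) x), 𝔪.IsMaximal →
    algebraMap A₀ (chartClosure A₀ (ModelField K₁ (M * q)) x) ((q : ℕ) : A₀) ∈ 𝔪 →
    Through A₀ (ModelField K₁ (M * q)) x 𝔪 (ktV K₁ A₀ (M * q)) →
    Through A₀ (ModelField K₁ (M * q)) x 𝔪 (ktV0 K₁ A₀ M q W) →
    ∀ z ∈ chartClosure A₀ (ModelField K₁ (M * q)) x, ∃ a b : ModelField K₁ M,
      heckeAlphaBar K₁ M q a ∈ chartClosure A₀ (ModelField K₁ (M * q)) x ∧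
      (∃ hb : heckeAlphaBar K₁ M q b ∈ chartClosure A₀ (ModelField K₁ (M * q)) x,
        (⟨heckeAlphaBar K₁ M q b, hb⟩ : chartClosure A₀ (ModelField K₁ (M * q)) x) ∉ 𝔪) ∧
      heckeAlphaBar K₁ M q b * z - heckeAlphaBar K₁ M q a ∈ (ktV K₁ A₀ (M * q)).nonunits

/-- **FR-3 at the point `(K₁, A₀, x, W, φ₁)`** (clause 5 of `ModelFrobStatement`). -/
def FrobNodeAt (x : ModelField K₁ (M * q))
    (W : ModelField K₁ (M * q) ≃ₐ[K₁] ModelField K₁ (M * q)) (φ₁ : K₁ ≃ₐ[ℚ] K₁) : Prop :=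
  ∀ y : ModelField K₁ (M * q), y = x ∨ y = x⁻¹ →
    ∀ 𝔪 : Ideal (chartClosure A₀ (ModelField K₁ (M * q)) y), 𝔪.IsMaximal →
      algebraMap A₀ (chartClosure A₀ (ModelField K₁ (M * q)) y) ((q : ℕ) : A₀) ∈ 𝔪 →
      Through A₀ (ModelField K₁ (M * q)) y 𝔪 (ktV K₁ A₀ (M * q)) →
      Through A₀ (ModelField K₁ (M * q)) y 𝔪 (ktV0 K₁ A₀ M q W) →
      ∀ s : chartClosure A₀ (ModelField K₁ (M * q)) y, s ∈ 𝔪 →
        ∀ h : modelSigma K₁ (M * q) (φ₁.trans φ₁) (s : ModelField K₁ (M * q)) ∈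
            chartClosure A₀ (ModelField K₁ (M * q)) y,
          (⟨modelSigma K₁ (M * q) (φ₁.trans φ₁) (s : ModelField K₁ (M * q)), h⟩ :
            chartClosure A₀ (ModelField K₁ (M * q)) y) ∈ 𝔪

/-- **The five clauses of `ModelFrobStatement M q` at the point `(K₁, A₀, x, W, φ₁)`.** -/
def FrobAt (x : ModelField K₁ (M * q))
    (W : ModelField K₁ (M * q) ≃ₐ[K₁] ModelField K₁ (M * q)) (φ₁ : K₁ ≃ₐ[ℚ] K₁) : Prop :=
  (∀ a : A₀, ∃ b : A₀, modelSigma K₁ (M * q) (φ₁.trans φ₁)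
    (algebraMap A₀ (ModelField K₁ (M * q)) a) = algebraMap A₀ (ModelField K₁ (M * q)) b) ∧
  (∀ a : A₀, ∃ b : A₀, (modelSigma K₁ (M * q) (φ₁.trans φ₁)).symm
    (algebraMap A₀ (ModelField K₁ (M * q)) a) = algebraMap A₀ (ModelField K₁ (M * q)) b) ∧
  modelSigma K₁ (M * q) (φ₁.trans φ₁) x = x ∧
  (∀ n : ℕ, IsUnit ((n : ℕ) : A₀) → ∀ c : A₀, c ^ n = 1 →
    modelSigma K₁ (M * q) (φ₁.trans φ₁) (algebraMap A₀ (ModelField K₁ (M * q)) c) =
      algebraMap A₀ (ModelField K₁ (M * q)) (c ^ (q ^ 2))) ∧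
  FrobNodeAt M q K₁ A₀ x W φ₁

end Point

/-- `ModelFrobStatement M q` is `FrobAt` at every point. -/
theorem modelFrob_iff_frobAt (M q : ℕ) [NeZero M] [NeZero q] :
    ModelFrobStatement M q ↔
      ∀ (K₁ : Type) [Field K₁] [Algebra ℚ K₁] [FiniteDimensional ℚ K₁]
        (A₀ : Type) [CommRing A₀] [IsDomain A₀] [IsDiscreteValuationRing A₀]
        [Algebra A₀ K₁] [IsFractionRing A₀ K₁]
        [Algebra A₀ (ModelField K₁ (M * q))] [IsScalarTower A₀ K₁ (ModelField K₁ (M * q))],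
        Irreducible ((q : ℕ) : A₀) →
        ∀ (x : ModelField K₁ (M * q)), (x : LaurentSeries K₁) = coeffEmb K₁ jq →
        ∀ (W : ModelField K₁ (M * q) ≃ₐ[K₁] ModelField K₁ (M * q)),
          IsAtkinLehnerModel K₁ M q W →
        ∀ (φ₁ : K₁ ≃ₐ[ℚ] K₁), IsModelFrobenius K₁ A₀ q φ₁ → FrobAt M q K₁ A₀ x W φ₁ :=
  Iff.rfl

/-- `ModelFracLocStatement M q` is `FracLocAt` at every point. -/
theorem modelFracLoc_iff_fracLocAt (M q : ℕ) [NeZero M] [NeZero q] :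
    ModelFracLocStatement M q ↔
      ∀ (K₁ : Type) [Field K₁] [Algebra ℚ K₁] [FiniteDimensional ℚ K₁]
        (A₀ : Type) [CommRing A₀] [IsDomain A₀] [IsDiscreteValuationRing A₀]
        [Algebra A₀ K₁] [IsFractionRing A₀ K₁]
        [Algebra A₀ (ModelField K₁ (M * q))] [IsScalarTower A₀ K₁ (ModelField K₁ (M * q))],
        Irreducible ((q : ℕ) : A₀) →
        ∀ (x : ModelField K₁ (M * q)), (x : LaurentSeries K₁) = coeffEmb K₁ jq →
        ∀ (W : ModelField K₁ (M * q) ≃ₐ[K₁] ModelField K₁ (M * q)),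
          IsAtkinLehnerModel K₁ M q W → FracLocAt M q K₁ A₀ x W :=
  Iff.rfl

section Main

variable (M q : ℕ) [NeZero M] [NeZero q]
  (K₁ : Type) [Field K₁] [Algebra ℚ K₁] [FiniteDimensional ℚ K₁]
  (A₀ : Type) [CommRing A₀] [IsDomain A₀] [IsDiscreteValuationRing A₀]
  [Algebra A₀ K₁] [IsFractionRing A₀ K₁]
  [Algebra A₀ (ModelField K₁ (M * q))] [IsScalarTower A₀ K₁ (ModelField K₁ (M * q))]

/-- **FR-3 in the chart `x`, pointwise.** -/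
theorem ktf_node_chart_point (hq : q.Prime) (hqM : ¬ q ∣ M)
    (hirr : Irreducible ((q : ℕ) : A₀))
    (x : ModelField K₁ (M * q)) (hx : (x : LaurentSeries K₁) = coeffEmb K₁ jq)
    (W : ModelField K₁ (M * q) ≃ₐ[K₁] ModelField K₁ (M * q)) (hW : IsAtkinLehnerModel K₁ M q W)
    (φ₁ : K₁ ≃ₐ[ℚ] K₁) (hφ : IsModelFrobenius K₁ A₀ q φ₁)
    (hFrac : FracLocAt M q K₁ A₀ x W) :
    ∀ 𝔪 : Ideal (chartClosure A₀ (ModelField K₁ (M * q)) x), 𝔪.IsMaximal →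
      algebraMap A₀ (chartClosure A₀ (ModelField K₁ (M * q)) x) ((q : ℕ) : A₀) ∈ 𝔪 →
      Through A₀ (ModelField K₁ (M * q)) x 𝔪 (ktV K₁ A₀ (M * q)) →
      Through A₀ (ModelField K₁ (M * q)) x 𝔪 (ktV0 K₁ A₀ M q W) →
      ∀ s : chartClosure A₀ (ModelField K₁ (M * q)) x, s ∈ 𝔪 →
        ∀ h : modelSigma K₁ (M * q) (φ₁.trans φ₁) (s : ModelField K₁ (M * q)) ∈
            chartClosure A₀ (ModelField K₁ (M * q)) x,
          (⟨modelSigma K₁ (M * q) (φ₁.trans φ₁) (s : ModelField K₁ (M * q)), h⟩ :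
            chartClosure A₀ (ModelField K₁ (M * q)) x) ∈ 𝔪 := by
  intro 𝔪 h𝔪 hq𝔪 hT₁ hT₂
  haveI : Fact q.Prime := ⟨hq⟩
  haveI : 𝔪.IsPrime := h𝔪.isPrime
  obtain ⟨-, -, -, -, hvert₁, -, -, hinv₁, -, hinv', hT1a, -, -, -⟩ :=
    Fermat.Agent.H34.SS.modelVal2 M q hq hqM K₁ A₀ hirr x hx W hW φ₁ hφ
  have hΨσ : ∀ z : ModelField K₁ (M * q), modelSigma K₁ (M * q) (φ₁.trans φ₁) z =
      modelSigma K₁ (M * q) φ₁ (modelSigma K₁ (M * q) φ₁ z) :=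
    fun z => ktf_psi_apply (M * q) φ₁ z
  have hΨB : ∀ z ∈ chartClosure A₀ (ModelField K₁ (M * q)) x,
      modelSigma K₁ (M * q) (φ₁.trans φ₁) z ∈ chartClosure A₀ (ModelField K₁ (M * q)) x :=
    ktf_chart_preserves (modelSigma K₁ (M * q) (φ₁.trans φ₁)) (ktf_psi_preserves (M * q) hφ)
      (ktf_psi_fix (M * q) φ₁ jq x hx)
  have hσA : ∀ a : A₀, ∃ b : A₀, modelSigma K₁ (M * q) φ₁
      (algebraMap A₀ (ModelField K₁ (M * q)) a) = algebraMap A₀ (ModelField K₁ (M * q)) b := by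
    intro a
    obtain ⟨b, hb, -⟩ := hφ a
    refine ⟨b, ?_⟩
    rw [ktf_sigma_algebraMap, IsScalarTower.algebraMap_apply A₀ K₁ (ModelField K₁ (M * q)) b, hb]
  have hσB : ∀ z ∈ chartClosure A₀ (ModelField K₁ (M * q)) x,
      modelSigma K₁ (M * q) φ₁ z ∈ chartClosure A₀ (ModelField K₁ (M * q)) x :=
    ktf_chart_preserves (modelSigma K₁ (M * q) φ₁) hσA (ktf_sigma_fix (M * q) φ₁ jq x hx)
  have hσV := ktf_nonunits_of_inv (ktV K₁ A₀ (M * q)) (modelSigma K₁ (M * q) φ₁) hinv₁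
  have hΨV : ∀ z ∈ (ktV K₁ A₀ (M * q)).nonunits,
      modelSigma K₁ (M * q) (φ₁.trans φ₁) z ∈ (ktV K₁ A₀ (M * q)).nonunits := by
    intro z hz
    rw [hΨσ]
    exact hσV _ (hσV _ hz)
  have htr : Transcendental A₀ x := Fermat.Agent.H58.modelTranscendental_jq (M * q) K₁ A₀ x hx
  have hBV : ∀ z ∈ chartClosure A₀ (ModelField K₁ (M * q)) x, z ∈ ktV K₁ A₀ (M * q) :=
    fun z hz => hvert₁.2.2.1 z (Fermat.Agent.H89.klg_chartClosure_le_gaussClosure hirr htr hz)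
  have hq𝔪' : ((q : ℕ) : chartClosure A₀ (ModelField K₁ (M * q)) x) ∈ 𝔪 := by
    have h := hq𝔪
    rwa [map_natCast] at h
  have hKR := modelKR M q hq
  have hcompat : ∀ a : ModelField K₁ M,
      heckeAlphaBar K₁ M q a ∈ chartClosure A₀ (ModelField K₁ (M * q)) x →
      Fermat.Agent.H71.SS.ChartFrobCompat A₀ (ModelField K₁ (M * q)) x 𝔪
        (modelSigma K₁ (M * q) (φ₁.trans φ₁)) (q ^ 2) (heckeAlphaBar K₁ M q a) := by
    intro a ha
    have haV : a ∈ ktV K₁ A₀ M := (hT1a a).mp (hBV _ ha)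
    have hΦaV : modelSigma K₁ M φ₁ a ∈ ktV K₁ A₀ M := ktf_mem_of_inv _ _ hinv' a haV
    have hβ : heckeBetaBar K₁ M q (modelSigma K₁ M φ₁ a) ∈
        chartClosure A₀ (ModelField K₁ (M * q)) x := by
      rw [← hW.1, ← ktf_sigma_alpha]
      exact ktf_W_chart M q x hx W hW _ (hσB _ ha)
    have hΨα : modelSigma K₁ (M * q) (φ₁.trans φ₁) (heckeAlphaBar K₁ M q a) =
        heckeAlphaBar K₁ M q (modelSigma K₁ M φ₁ (modelSigma K₁ M φ₁ a)) := by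
      rw [hΨσ, ktf_sigma_alpha, ktf_sigma_alpha]
    refine Fermat.Agent.H71.SS.frobNode_kronecker hT₁ hT₂ ha hβ (hΨB _ ha)
      (hKR K₁ A₀ hirr W hW φ₁ hφ a haV).1 ?_
    rw [hΨα]
    exact (hKR K₁ A₀ hirr W hW φ₁ hφ _ hΦaV).2
  refine Fermat.Agent.H71.SS.frobNode_map_mem x 𝔪 q hq𝔪' 2 (ktV K₁ A₀ (M * q)) hT₁
    (modelSigma K₁ (M * q) (φ₁.trans φ₁)) hΨB hΨV ?_
  intro z hz
  obtain ⟨a, b, ha, ⟨hb, hbm⟩, hr⟩ := hFrac 𝔪 h𝔪 hq𝔪 hT₁ hT₂ z hz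
  exact ⟨heckeAlphaBar K₁ M q a, heckeAlphaBar K₁ M q b, hcompat a ha, hcompat b hb,
    fun _ => hbm, hr⟩

/-- **FR-3, pointwise**: both charts. -/
theorem frobNodeAt_of_fracLocAt (hq : q.Prime) (hqM : ¬ q ∣ M)
    (hirr : Irreducible ((q : ℕ) : A₀))
    (x : ModelField K₁ (M * q)) (hx : (x : LaurentSeries K₁) = coeffEmb K₁ jq)
    (W : ModelField K₁ (M * q) ≃ₐ[K₁] ModelField K₁ (M * q)) (hW : IsAtkinLehnerModel K₁ M q W)
    (φ₁ : K₁ ≃ₐ[ℚ] K₁) (hφ : IsModelFrobenius K₁ A₀ q φ₁)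
    (hFrac : FracLocAt M q K₁ A₀ x W) : FrobNodeAt M q K₁ A₀ x W φ₁ := by
  intro y hy 𝔪 h𝔪 hq𝔪 hT₁ hT₂
  have hchart := ktf_node_chart_point M q K₁ A₀ hq hqM hirr x hx W hW φ₁ hφ hFrac
  rcases hy with hy | hy
  · subst hy
    exact hchart 𝔪 h𝔪 hq𝔪 hT₁ hT₂
  · subst hy
    obtain ⟨-, -, -, -, hvert₁, hvert₂, -⟩ :=
      Fermat.Agent.H34.SS.modelVal2 M q hq hqM K₁ A₀ hirr x hx W hW φ₁ hφ
    have htr : Transcendental A₀ x :=
      Fermat.Agent.H58.modelTranscendental_jq (M * q) K₁ A₀ x hx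
    have hx0 : x ≠ 0 := by
      rintro rfl
      exact htr isAlgebraic_zero
    have hxV₁ : x⁻¹ ∈ ktV K₁ A₀ (M * q) :=
      hvert₁.2.2.1 _ (ktf_inv_mem_gaussClosure hirr htr)
    have hxV₂ : x⁻¹ ∈ ktV0 K₁ A₀ M q W :=
      hvert₂.2.2.1 _ (ktf_inv_mem_gaussClosure hirr htr)
    by_cases hxm : x⁻¹ ∈ ctImg (chartClosure A₀ (ModelField K₁ (M * q)) x⁻¹) 𝔪
    · exact (ktf_cusp_not_node M q hq K₁ A₀ hirr x hx W hW φ₁ hφ hxV₁ hxV₂ 𝔪 h𝔪 hxm
        hT₁ hT₂).elim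
    · exact ktf_node_transfer hirr hx0 (modelSigma K₁ (M * q) (φ₁.trans φ₁))
        (ktf_psi_fix (M * q) φ₁ jq x hx)
        (ktf_chart_preserves (modelSigma K₁ (M * q) (φ₁.trans φ₁))
          (ktf_psi_preserves (M * q) hφ) (ktf_psi_fix (M * q) φ₁ jq x hx))
        (ktV K₁ A₀ (M * q)) (ktV0 K₁ A₀ M q W) hxV₁ hxV₂ hchart 𝔪 h𝔪 hq𝔪 hxm hT₁ hT₂

/-- **KT-C3 (FROB), pointwise.** -/
theorem frobAt_of_fracLocAt (hq : q.Prime) (hqM : ¬ q ∣ M)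
    (hirr : Irreducible ((q : ℕ) : A₀))
    (x : ModelField K₁ (M * q)) (hx : (x : LaurentSeries K₁) = coeffEmb K₁ jq)
    (W : ModelField K₁ (M * q) ≃ₐ[K₁] ModelField K₁ (M * q)) (hW : IsAtkinLehnerModel K₁ M q W)
    (φ₁ : K₁ ≃ₐ[ℚ] K₁) (hφ : IsModelFrobenius K₁ A₀ q φ₁)
    (hFrac : FracLocAt M q K₁ A₀ x W) : FrobAt M q K₁ A₀ x W φ₁ := by
  refine ⟨ktf_psi_preserves (M * q) hφ, ktf_psi_symm_preserves (M * q) hφ,
    ktf_psi_fix (M * q) φ₁ jq x hx, ?_,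
    frobNodeAt_of_fracLocAt M q K₁ A₀ hq hqM hirr x hx W hW φ₁ hφ hFrac⟩
  intro n hn c hc
  exact ktf_psi_root (M * q) hφ hn hc

end Main

/-- **KT-C3 (FROB)**, row 973: `ModelFrobStatement M q` from (FRAC-loc) alone. -/
theorem modelFrob_of_fracLoc (M q : ℕ) [NeZero M] [NeZero q] (hq : q.Prime) (hqM : ¬ q ∣ M)
    (hFrac : ModelFracLocStatement M q) : ModelFrobStatement M q := by
  intro K₁ _ _ _ A₀ _ _ _ _ _ _ _ hirr x hx W hW φ₁ hφ
  exact frobAt_of_fracLocAt M q K₁ A₀ hq hqM hirr x hx W hW φ₁ hφ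
    (hFrac K₁ A₀ hirr x hx W hW)

/-! ### The rooted forms -/

/-- **(FRAC-loc)** for the fields `K₁` containing a primitive `R`-th root of unity. -/
def ModelFracLocRootsStatement (M q R : ℕ) [NeZero M] [NeZero q] : Prop :=
  ∀ (K₁ : Type) [Field K₁] [Algebra ℚ K₁] [FiniteDimensional ℚ K₁]
    (A₀ : Type) [CommRing A₀] [IsDomain A₀] [IsDiscreteValuationRing A₀]
    [Algebra A₀ K₁] [IsFractionRing A₀ K₁]
    [Algebra A₀ (ModelField K₁ (M * q))] [IsScalarTower A₀ K₁ (ModelField K₁ (M * q))],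
    (∃ ζ : K₁, IsPrimitiveRoot ζ R) →
    Irreducible ((q : ℕ) : A₀) →
    ∀ (x : ModelField K₁ (M * q)), (x : LaurentSeries K₁) = coeffEmb K₁ jq →
    ∀ (W : ModelField K₁ (M * q) ≃ₐ[K₁] ModelField K₁ (M * q)), IsAtkinLehnerModel K₁ M q W →
      FracLocAt M q K₁ A₀ x W

/-- **KT-C3 (FROB)** for the fields `K₁` containing a primitive `R`-th root of unity. -/
def ModelFrobRootsStatement (M q R : ℕ) [NeZero M] [NeZero q] : Prop :=
  ∀ (K₁ : Type) [Field K₁] [Algebra ℚ K₁] [FiniteDimensional ℚ K₁]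
    (A₀ : Type) [CommRing A₀] [IsDomain A₀] [IsDiscreteValuationRing A₀]
    [Algebra A₀ K₁] [IsFractionRing A₀ K₁]
    [Algebra A₀ (ModelField K₁ (M * q))] [IsScalarTower A₀ K₁ (ModelField K₁ (M * q))],
    (∃ ζ : K₁, IsPrimitiveRoot ζ R) →
    Irreducible ((q : ℕ) : A₀) →
    ∀ (x : ModelField K₁ (M * q)), (x : LaurentSeries K₁) = coeffEmb K₁ jq →
    ∀ (W : ModelField K₁ (M * q) ≃ₐ[K₁] ModelField K₁ (M * q)), IsAtkinLehnerModel K₁ M q W →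
    ∀ (φ₁ : K₁ ≃ₐ[ℚ] K₁), IsModelFrobenius K₁ A₀ q φ₁ → FrobAt M q K₁ A₀ x W φ₁

/-- **KT-C3 (FROB), rooted form.** -/
theorem modelFrobRoots (M q R : ℕ) [NeZero M] [NeZero q] (hq : q.Prime) (hqM : ¬ q ∣ M)
    (hFrac : ModelFracLocRootsStatement M q R) : ModelFrobRootsStatement M q R := by
  intro K₁ _ _ _ A₀ _ _ _ _ _ _ _ hroot hirr x hx W hW φ₁ hφ
  exact frobAt_of_fracLocAt M q K₁ A₀ hq hqM hirr x hx W hW φ₁ hφ
    (hFrac K₁ A₀ hroot hirr x hx W hW)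

/-- The unrooted statement gives the rooted ones. -/
theorem modelFrobRoots_of_modelFrob (M q R : ℕ) [NeZero M] [NeZero q]
    (h : ModelFrobStatement M q) : ModelFrobRootsStatement M q R := by
  intro K₁ _ _ _ A₀ _ _ _ _ _ _ _ _ hirr x hx W hW φ₁ hφ
  exact h K₁ A₀ hirr x hx W hW φ₁ hφ

/-! ### FR-3 alone (the input `hNode` of helper55's assembly) -/

/-- `ModelFrobNodeStatement M q` is `FrobNodeAt` at every point. -/
theorem modelFrobNode_iff_frobNodeAt (M q : ℕ) [NeZero M] [NeZero q] :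
    ModelFrobNodeStatement M q ↔
      ∀ (K₁ : Type) [Field K₁] [Algebra ℚ K₁] [FiniteDimensional ℚ K₁]
        (A₀ : Type) [CommRing A₀] [IsDomain A₀] [IsDiscreteValuationRing A₀]
        [Algebra A₀ K₁] [IsFractionRing A₀ K₁]
        [Algebra A₀ (ModelField K₁ (M * q))] [IsScalarTower A₀ K₁ (ModelField K₁ (M * q))],
        Irreducible ((q : ℕ) : A₀) →
        ∀ (x : ModelField K₁ (M * q)), (x : LaurentSeries K₁) = coeffEmb K₁ jq →
        ∀ (W : ModelField K₁ (M * q) ≃ₐ[K₁] ModelField K₁ (M * q)),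
          IsAtkinLehnerModel K₁ M q W →
        ∀ (φ₁ : K₁ ≃ₐ[ℚ] K₁), IsModelFrobenius K₁ A₀ q φ₁ → FrobNodeAt M q K₁ A₀ x W φ₁ :=
  Iff.rfl

/-- **FR-3** from (FRAC-loc) alone. -/
theorem modelFrobNode_of_fracLoc (M q : ℕ) [NeZero M] [NeZero q] (hq : q.Prime)
    (hqM : ¬ q ∣ M) (hFrac : ModelFracLocStatement M q) : ModelFrobNodeStatement M q := by
  intro K₁ _ _ _ A₀ _ _ _ _ _ _ _ hirr x hx W hW φ₁ hφ
  exact frobNodeAt_of_fracLocAt M q K₁ A₀ hq hqM hirr x hx W hW φ₁ hφ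
    (hFrac K₁ A₀ hirr x hx W hW)

/-- **FR-3** for the fields `K₁` containing a primitive `R`-th root of unity. -/
def ModelFrobNodeRootsStatement (M q R : ℕ) [NeZero M] [NeZero q] : Prop :=
  ∀ (K₁ : Type) [Field K₁] [Algebra ℚ K₁] [FiniteDimensional ℚ K₁]
    (A₀ : Type) [CommRing A₀] [IsDomain A₀] [IsDiscreteValuationRing A₀]
    [Algebra A₀ K₁] [IsFractionRing A₀ K₁]
    [Algebra A₀ (ModelField K₁ (M * q))] [IsScalarTower A₀ K₁ (ModelField K₁ (M * q))],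
    (∃ ζ : K₁, IsPrimitiveRoot ζ R) →
    Irreducible ((q : ℕ) : A₀) →
    ∀ (x : ModelField K₁ (M * q)), (x : LaurentSeries K₁) = coeffEmb K₁ jq →
    ∀ (W : ModelField K₁ (M * q) ≃ₐ[K₁] ModelField K₁ (M * q)), IsAtkinLehnerModel K₁ M q W →
    ∀ (φ₁ : K₁ ≃ₐ[ℚ] K₁), IsModelFrobenius K₁ A₀ q φ₁ → FrobNodeAt M q K₁ A₀ x W φ₁

/-- **FR-3, rooted form.** -/
theorem modelFrobNodeRoots (M q R : ℕ) [NeZero M] [NeZero q] (hq : q.Prime) (hqM : ¬ q ∣ M)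
    (hFrac : ModelFracLocRootsStatement M q R) : ModelFrobNodeRootsStatement M q R := by
  intro K₁ _ _ _ A₀ _ _ _ _ _ _ _ hroot hirr x hx W hW φ₁ hφ
  exact frobNodeAt_of_fracLocAt M q K₁ A₀ hq hqM hirr x hx W hW φ₁ hφ
    (hFrac K₁ A₀ hroot hirr x hx W hW)

/-- For `R = 1` the rooted statements are the unrooted ones. -/
theorem modelFrobNode_of_roots_one (M q : ℕ) [NeZero M] [NeZero q]
    (h : ModelFrobNodeRootsStatement M q 1) : ModelFrobNodeStatement M q := by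
  intro K₁ _ _ _ A₀ _ _ _ _ _ _ _ hirr x hx W hW φ₁ hφ
  exact h K₁ A₀ ⟨1, IsPrimitiveRoot.one⟩ hirr x hx W hW φ₁ hφ

end Fermat.Agent.H65.SS
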