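/-
P-SS row 973 (KT-C3 FROB), helper65, part 7: FR-3 in helper55's rooted contract
`Fermat.Agent.H55.SS.ModelNodeStableRStatement M q R`, from (FRAC-loc) over the fields `K₁`
containing a primitive `R`-th root of unity.
-/
import Mathlib
import Fermat.Agent.H65.SS.KtFrobPoint
import Fermat.Agent.H55.SS.KTAsmCore

set_option autoImplicit false
set_option linter.style.haveILetI false
set_option linter.unusedSectionVars false

noncomputable section

namespace Fermat.Agent.H65.SS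

open ModularCurve AlgebraicCurve
open Fermat.Agent.H22.KL Fermat.Agent.H11.SS2 Fermat.Agent.H55.SS Fermat.Agent.H82.SS

/-- helper55's pointwise FR-3 is `FrobNodeAt` at every `(x, W, φ₁)`. -/
theorem ktNodeStableAt_iff (M q : ℕ) [NeZero M] [NeZero q]
    (K₁ : Type) [Field K₁] [Algebra ℚ K₁] [FiniteDimensional ℚ K₁]
    (A₀ : Type) [CommRing A₀] [IsDomain A₀] [IsDiscreteValuationRing A₀]
    [Algebra A₀ K₁] [IsFractionRing A₀ K₁]
    [Algebra A₀ (ModelField K₁ (M * q))] [IsScalarTower A₀ K₁ (ModelField K₁ (M * q))] :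
    KtNodeStableAt M q K₁ A₀ ↔
      ∀ (x : ModelField K₁ (M * q)), (x : LaurentSeries K₁) = coeffEmb K₁ jq →
      ∀ (W : ModelField K₁ (M * q) ≃ₐ[K₁] ModelField K₁ (M * q)), IsAtkinLehnerModel K₁ M q W →
      ∀ (φ₁ : K₁ ≃ₐ[ℚ] K₁), IsModelFrobenius K₁ A₀ q φ₁ → FrobNodeAt M q K₁ A₀ x W φ₁ :=
  Iff.rfl

/-- **FR-3 for one pair `(K₁, A₀)`** from (FRAC-loc) for this pair. -/
theorem ktNodeStableAt_of_fracLocAt (M q : ℕ) [NeZero M] [NeZero q]
    (hq : q.Prime) (hqM : ¬ q ∣ M)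
    (K₁ : Type) [Field K₁] [Algebra ℚ K₁] [FiniteDimensional ℚ K₁]
    (A₀ : Type) [CommRing A₀] [IsDomain A₀] [IsDiscreteValuationRing A₀]
    [Algebra A₀ K₁] [IsFractionRing A₀ K₁]
    [Algebra A₀ (ModelField K₁ (M * q))] [IsScalarTower A₀ K₁ (ModelField K₁ (M * q))]
    (hirr : Irreducible ((q : ℕ) : A₀))
    (hFrac : ∀ (x : ModelField K₁ (M * q)), (x : LaurentSeries K₁) = coeffEmb K₁ jq →
      ∀ (W : ModelField K₁ (M * q) ≃ₐ[K₁] ModelField K₁ (M * q)),
        IsAtkinLehnerModel K₁ M q W → FracLocAt M q K₁ A₀ x W) :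
    KtNodeStableAt M q K₁ A₀ := by
  intro x hx W hW φ₁ hφ
  exact frobNodeAt_of_fracLocAt M q K₁ A₀ hq hqM hirr x hx W hW φ₁ hφ (hFrac x hx W hW)

/-- **FR-3 over the fields containing `μ_R`** (helper55's contract) from (FRAC-loc) over these
fields, root hypothesis placed after `Irreducible`. -/
theorem modelNodeStableR_of_fracLocAt (M q R : ℕ) [NeZero M] [NeZero q]
    (hq : q.Prime) (hqM : ¬ q ∣ M)
    (hFrac : ∀ (K₁ : Type) [Field K₁] [Algebra ℚ K₁] [FiniteDimensional ℚ K₁]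
      (A₀ : Type) [CommRing A₀] [IsDomain A₀] [IsDiscreteValuationRing A₀]
      [Algebra A₀ K₁] [IsFractionRing A₀ K₁]
      [Algebra A₀ (ModelField K₁ (M * q))] [IsScalarTower A₀ K₁ (ModelField K₁ (M * q))],
      Irreducible ((q : ℕ) : A₀) → (∃ ζ : K₁, IsPrimitiveRoot ζ R) →
      ∀ (x : ModelField K₁ (M * q)), (x : LaurentSeries K₁) = coeffEmb K₁ jq →
      ∀ (W : ModelField K₁ (M * q) ≃ₐ[K₁] ModelField K₁ (M * q)),
        IsAtkinLehnerModel K₁ M q W → FracLocAt M q K₁ A₀ x W) :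
    ModelNodeStableRStatement M q R := by
  intro K₁ _ _ _ A₀ _ _ _ _ _ _ _ hirr hroot
  exact ktNodeStableAt_of_fracLocAt M q hq hqM K₁ A₀ hirr (hFrac K₁ A₀ hirr hroot)

/-- **FR-3 over the fields containing `μ_R`** (helper55's contract) from
`ModelFracLocRootsStatement M q R`. -/
theorem modelNodeStableR_of_fracLocRoots (M q R : ℕ) [NeZero M] [NeZero q]
    (hq : q.Prime) (hqM : ¬ q ∣ M) (hFrac : ModelFracLocRootsStatement M q R) :
    ModelNodeStableRStatement M q R :=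
  modelNodeStableR_of_fracLocAt M q R hq hqM
    (fun K₁ _ _ _ A₀ _ _ _ _ _ _ _ hirr hroot x hx W hW => hFrac K₁ A₀ hroot hirr x hx W hW)

/-- **FR-3 over the fields containing `μ_R`** from the rootless (FRAC-loc). -/
theorem modelNodeStableR_of_fracLoc (M q R : ℕ) [NeZero M] [NeZero q]
    (hq : q.Prime) (hqM : ¬ q ∣ M) (hFrac : ModelFracLocStatement M q) :
    ModelNodeStableRStatement M q R :=
  modelNodeStableR_of_fracLocAt M q R hq hqM
    (fun K₁ _ _ _ A₀ _ _ _ _ _ _ _ hirr _ x hx W hW => hFrac K₁ A₀ hirr x hx W hW)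

end Fermat.Agent.H65.SS
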