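/-
P-SS row 973 (KT-C3 FROB), helper65, part 2: FR-3, the abstract form in the chart language.

A maximal (prime) ideal `𝔪` of the chart ring `B(y)` through which both vertical valuations
`V₁`, `V₂` pass is stable under `Ψ`, provided `𝔪` is locally generated, modulo the centre of `V₁`,
by quotients of *Frobenius pairs*: elements `s` with a twin `s'` such that
`s ^ q ≡ s'` on `V₁` and `Ψ s ≡ s' ^ q` on `V₂` (then `Ψ s ≡ s ^ (q²)` modulo `𝔪`).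
-/
import Mathlib
import Fermat.Agent.H55.SS.KTContract
import Fermat.Agent.H71.SS.FrobStable

set_option autoImplicit false
set_option linter.style.haveILetI false
set_option linter.unusedSectionVars false

noncomputable section

namespace Fermat.Agent.H65.SS

open Fermat.Agent.H22.KL Fermat.Agent.H11.SS2 Fermat.Agent.H55.SS

/-- A Frobenius pair is Frobenius compatible for `Q = q²`. -/
theorem ktf_frobCompat_of_pair {B : Type*} [CommRing B] {𝔪 : Ideal B} (ψ : B →+* B) (q : ℕ)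
    {s s' : B} (h1 : s ^ q - s' ∈ 𝔪) (h2 : ψ s - s' ^ q ∈ 𝔪) :
    Fermat.Agent.H71.SS.IsFrobCompat 𝔪 ψ (q ^ 2) s := by
  unfold Fermat.Agent.H71.SS.IsFrobCompat
  have h3 : (s ^ q) ^ q - s' ^ q ∈ 𝔪 := by
    obtain ⟨u, hu⟩ := sub_dvd_pow_sub_pow (s ^ q) s' q
    rw [hu]
    exact 𝔪.mul_mem_right _ h1
  have e : ψ s - s ^ (q ^ 2) = (ψ s - s' ^ q) - ((s ^ q) ^ q - s' ^ q) := by
    rw [sq, pow_mul]
    ring
  rw [e]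
  exact 𝔪.sub_mem h2 h3

/-- **FR-3, ring form.** -/
theorem ktf_map_mem_of_gen {B : Type*} [CommRing B] {𝔪 : Ideal B} [𝔪.IsPrime] (ψ : B →+* B)
    (q : ℕ) (hq : q ≠ 0) (P₁ P₂ : Set B) (hP₁ : ∀ z ∈ P₁, z ∈ 𝔪) (hP₂ : ∀ z ∈ P₂, z ∈ 𝔪)
    (hψ : ∀ z ∈ P₁, ψ z ∈ 𝔪)
    (hgen : ∀ z ∈ 𝔪, ∃ b s b' s' : B, b ∉ 𝔪 ∧ b ^ q - b' ∈ P₁ ∧ ψ b - b' ^ q ∈ P₂ ∧
      s ^ q - s' ∈ P₁ ∧ ψ s - s' ^ q ∈ P₂ ∧ b * z - s ∈ P₁)
    {z : B} (hz : z ∈ 𝔪) : ψ z ∈ 𝔪 := by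
  have hQ : q ^ 2 ≠ 0 := pow_ne_zero 2 hq
  refine Fermat.Agent.H71.SS.map_mem_of_frobCompat (Q := q ^ 2) hQ (fun z hz => ?_) hz
  obtain ⟨b, s, b', s', hb, hb1, hb2, hs1, hs2, hbz⟩ := hgen z hz
  have hbF := ktf_frobCompat_of_pair ψ q (hP₁ _ hb1) (hP₂ _ hb2)
  have hsF := ktf_frobCompat_of_pair ψ q (hP₁ _ hs1) (hP₂ _ hs2)
  refine ⟨b, hb, hbF, ?_⟩
  have hbzm : b * z ∈ 𝔪 := 𝔪.mul_mem_left b hz
  have hsm : s ∈ 𝔪 := by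
    have h := 𝔪.sub_mem hbzm (hP₁ _ hbz)
    rwa [sub_sub_cancel] at h
  have hψs : ψ s ∈ 𝔪 := hsF.map_mem hQ hsm
  have hψbz : ψ (b * z) ∈ 𝔪 := by
    have h := 𝔪.add_mem (hψ _ hbz) hψs
    rwa [← map_add, sub_add_cancel] at h
  exact Fermat.Agent.H71.SS.isFrobCompat_of_mem hQ hbzm hψbz

/-- **FR-3, chart form** (the first component of `Fermat.Agent.H55.SS.KtTwo`). -/
theorem ktf_stable_abs (A : Type) [CommRing A] (E₀ : Type) [Field E₀] [Algebra A E₀] (q : ℕ)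
    (hq : q ≠ 0) (y : E₀) (Ψ : E₀ ≃+* E₀)
    (hΨB : ∀ z ∈ chartClosure A E₀ y, Ψ z ∈ chartClosure A E₀ y)
    (V₁ V₂ : ValuationSubring E₀) (hΨV : ∀ z ∈ V₁.nonunits, Ψ z ∈ V₁.nonunits)
    (𝔪 : Ideal (chartClosure A E₀ y)) [𝔪.IsPrime]
    (h1 : Through A E₀ y 𝔪 V₁) (h2 : Through A E₀ y 𝔪 V₂)
    (hgen : ∀ z : chartClosure A E₀ y, z ∈ 𝔪 → ∃ b s b' s' : chartClosure A E₀ y, b ∉ 𝔪 ∧
      (b : E₀) ^ q - b' ∈ V₁.nonunits ∧ Ψ b - (b' : E₀) ^ q ∈ V₂.nonunits ∧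
      (s : E₀) ^ q - s' ∈ V₁.nonunits ∧ Ψ s - (s' : E₀) ^ q ∈ V₂.nonunits ∧
      (b : E₀) * z - s ∈ V₁.nonunits) :
    ∀ s : chartClosure A E₀ y, s ∈ 𝔪 → ∀ h : Ψ (s : E₀) ∈ chartClosure A E₀ y,
      (⟨Ψ (s : E₀), h⟩ : chartClosure A E₀ y) ∈ 𝔪 := by
  let ψ : chartClosure A E₀ y →+* chartClosure A E₀ y :=
    { toFun := fun z => ⟨Ψ (z : E₀), hΨB _ z.2⟩
      map_one' := Subtype.ext (map_one Ψ)
      map_mul' := fun a b => Subtype.ext (map_mul Ψ _ _)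
      map_zero' := Subtype.ext (map_zero Ψ)
      map_add' := fun a b => Subtype.ext (map_add Ψ _ _) }
  intro s hs h
  have key : ψ s ∈ 𝔪 := by
    refine ktf_map_mem_of_gen ψ q hq {z | (z : E₀) ∈ V₁.nonunits} {z | (z : E₀) ∈ V₂.nonunits}
      (fun z hz => h1 z hz) (fun z hz => h2 z hz) (fun z hz => h1 _ (hΨV _ hz)) ?_ hs
    intro z hz
    obtain ⟨b, s, b', s', hb, hb1, hb2, hs1, hs2, hbz⟩ := hgen z hz
    exact ⟨b, s, b', s', hb, hb1, hb2, hs1, hs2, hbz⟩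
  exact key

end Fermat.Agent.H65.SS
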